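import Fermat.Agent.Row48.WeightOne.WpDeriv

/-!
# `℘` and `℘'` at the division points of any order
-/

set_option autoImplicit false

noncomputable section

open Filter Topology Complex UpperHalfPlane
open scoped Real Manifold MatrixGroups ModularForm

namespace Fermat.Agent.Row48.Coefficients

open Mazur.Moduli WeightOne

variable {p : ℕ} [NeZero p]

/-- The argument `(a τ + b) / p`. -/
def arg (v : ZMod p × ZMod p) (τ : ℂ) : ℂ := ((v.1.val : ℂ) * τ + (v.2.val : ℂ)) / p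

/-- `℘ / (2πi)²` at a division point. -/
def wpVal (v : ZMod p × ZMod p) (τ : ℍ) : ℂ := wpN (arg v τ) τ

/-- `℘' / (2πi)³` at a division point. -/
def wdVal (v : ZMod p × ZMod p) (τ : ℍ) : ℂ := wpD (arg v τ) τ

/-- The right action of `SL(2, ℤ)` on row vectors modulo `p`. -/
def rowAct (v : ZMod p × ZMod p) (γ : SL(2, ℤ)) : ZMod p × ZMod p :=
  (v.1 * (γ 0 0 : ℤ) + v.2 * (γ 1 0 : ℤ), v.1 * (γ 0 1 : ℤ) + v.2 * (γ 1 1 : ℤ))

omit [NeZero p] in
theorem rowAct_mul (v : ZMod p × ZMod p) (g h : SL(2, ℤ)) :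
    rowAct v (g * h) = rowAct (rowAct v g) h := by
  simp only [rowAct, Matrix.SpecialLinearGroup.coe_mul, Matrix.mul_apply, Fin.sum_univ_two]
  push_cast
  ext <;> simp <;> ring

omit [NeZero p] in
theorem rowAct_one (v : ZMod p × ZMod p) : rowAct v 1 = v := by simp [rowAct]

omit [NeZero p] in
theorem rowAct_neg (v : ZMod p × ZMod p) (g : SL(2, ℤ)) : rowAct (-v) g = -rowAct v g := by
  simp only [rowAct, Prod.fst_neg, Prod.snd_neg, Prod.neg_mk]
  ext <;> simp <;> ring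

theorem natCast_ne : (p : ℂ) ≠ 0 := Nat.cast_ne_zero.mpr (NeZero.ne p)

theorem exists_sub_val' (a : ℤ) {x : ZMod p} (h : (a : ZMod p) = x) :
    ∃ m : ℤ, a = (x.val : ℤ) + p * m := by
  have h1 : ((a - (x.val : ℤ) : ℤ) : ZMod p) = 0 := by
    push_cast
    rw [h, ZMod.natCast_zmod_val, sub_self]
  obtain ⟨m, hm⟩ := (ZMod.intCast_zmod_eq_zero_iff_dvd _ p).mp h1
  exact ⟨m, by linarith⟩

theorem intArg_eq (a b : ℤ) (τ : ℂ) :
    ∃ m n : ℤ, ((a : ℂ) * τ + b) / p = arg ((a : ZMod p), (b : ZMod p)) τ + ((m : ℂ) * τ + n) := by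
  obtain ⟨m, hm⟩ := exists_sub_val' (p := p) a rfl
  obtain ⟨n, hn⟩ := exists_sub_val' (p := p) b rfl
  refine ⟨m, n, ?_⟩
  have := natCast_ne (p := p)
  rw [arg]
  conv_lhs => rw [hm, hn]
  push_cast
  field_simp
  ring

theorem arg_notMem {v : ZMod p × ZMod p} (hv : v ≠ 0) (τ : ℍ) :
    arg v τ ∉ (tauPair τ).lattice := by
  intro h
  obtain ⟨m, n, h⟩ := mem_tauPair.mp h
  have hp := natCast_ne (p := p)
  rw [arg, eq_div_iff hp] at h
  have h1 : ((v.1.val : ℤ) - m * p : ℤ) * (τ : ℂ) = ((n * p - v.2.val : ℤ) : ℂ) := by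
    push_cast
    linear_combination -h
  have hm : ((v.1.val : ℤ) - m * p : ℤ) = 0 := by
    by_contra hne
    exact natCast_mul_ne_intCast τ hne _ h1
  rw [hm, Int.cast_zero, zero_mul] at h1
  have hn : (n * p - v.2.val : ℤ) = 0 := by exact_mod_cast h1.symm
  refine hv (Prod.ext ?_ ?_)
  · have := congrArg (fun x : ℤ => (x : ZMod p)) hm
    simpa [ZMod.natCast_zmod_val] using this
  · have := congrArg (fun x : ℤ => (x : ZMod p)) hn
    simpa [ZMod.natCast_zmod_val] using this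

theorem abs_im_arg (v : ZMod p × ZMod p) {τ : ℂ} (hτ : 0 < τ.im) :
    |(arg v τ).im| ≤ τ.im - τ.im / p := by
  have hp : (0 : ℝ) < p := Nat.cast_pos.mpr (NeZero.pos p)
  have him : (arg v τ).im = (v.1.val : ℝ) * τ.im / p := by
    rw [arg]; simp [-ZMod.natCast_val]
  have hle : (v.1.val : ℝ) + 1 ≤ p := by exact_mod_cast ZMod.val_lt v.1
  rw [him, abs_of_nonneg (by positivity), show τ.im - τ.im / p = ((p : ℝ) - 1) * τ.im / p by
    field_simp]
  gcongr
  linarith

theorem wpVal_mdiff {v : ZMod p × ZMod p} (hv : v ≠ 0) :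
    MDiff (wpVal v) := by
  show MDiff (fun τ : ℍ => wpN (arg v τ) τ)
  rw [UpperHalfPlane.mdifferentiable_iff]
  intro w hw
  have hp : (0 : ℝ) < p := Nat.cast_pos.mpr (NeZero.pos p)
  set U : Set ℂ := {z | w.im / 2 < z.im} with hU
  have hUo : IsOpen U := isOpen_lt continuous_const Complex.continuous_im
  have hw2 : 0 < w.im := hw
  have hwU : w ∈ U := by show w.im / 2 < w.im; linarith
  have hpos : ∀ z ∈ U, 0 < z.im := fun z hz => by
    have : w.im / 2 < z.im := hz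
    linarith
  set δ : ℝ := w.im / 2 / p with hδ'
  have hδ : 0 < δ := by positivity
  have hz : ∀ z ∈ U, δ ≤ z.im ∧ |(arg v z).im| ≤ z.im - δ := by
    intro z hz
    have hlt : w.im / 2 < z.im := hz
    have h0 := hpos z hz
    have h1 : δ ≤ z.im / p := by rw [hδ']; gcongr
    refine ⟨h1.trans (div_le_self h0.le (by exact_mod_cast (NeZero.one_le : 1 ≤ p))), ?_⟩
    linarith [abs_im_arg v h0]
  have hne : ∀ (m : ℤ), ∀ z ∈ U, ee (arg v z + (m : ℂ) * z) ≠ 1 := by
    intro m z hz h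
    obtain ⟨n, hn⟩ := ee_eq_one_iff.mp h
    exact sub_mul_ne_intCast (arg_notMem hv ⟨z, hpos z hz⟩) m n hn
  have hne' : ∀ (m : ℕ), ∀ z ∈ U, ee ((m + 1 : ℕ) * z) ≠ 1 := by
    intro m z hz h
    obtain ⟨n, hn⟩ := ee_eq_one_iff.mp h
    exact natCast_mul_ne_intCast ⟨z, hpos z hz⟩ (m := ((m + 1 : ℕ) : ℤ)) (by omega) n
      (by rw [Int.cast_natCast]; exact hn)
  have hgd : ∀ f : ℂ → ℂ, Differentiable ℂ f → (∀ z ∈ U, ee (f z) ≠ 1) →
      DifferentiableOn ℂ (fun z => geomDeriv (ee (f z))) U := by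
    intro f hf hf1 z hz
    have he : DifferentiableAt ℂ (fun z => ee (f z)) z := by
      simp only [ee]
      exact ((hf z).const_mul _).cexp
    exact ((he.div (((differentiableAt_const (1 : ℂ)).sub he).pow 2)
      (pow_ne_zero 2 (sub_ne_zero.mpr (Ne.symm (hf1 z hz)))))).differentiableWithinAt
  have hza : Differentiable ℂ (arg v) := by
    show Differentiable ℂ fun τ => ((v.1.val : ℂ) * τ + (v.2.val : ℂ)) / p
    fun_prop
  have hdiff : DifferentiableOn ℂ
      (fun z => 1 / 12 + geomDeriv (ee (arg v z)) + ∑' m, pairRow (arg v z) z m) U := by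
    refine ((differentiableOn_const _).add (hgd _ hza fun z hz => ?_)).add ?_
    · simpa using hne 0 z hz
    refine differentiableOn_tsum_of_summable_norm
      (u := fun m => 4 * (Real.exp (-(2 * π * δ)) / (1 - Real.exp (-(2 * π * δ))) ^ 2) *
        Real.exp (-(2 * π * δ)) ^ m) ?_ ?_ hUo
      (fun m z hzU => norm_pairRow_le hδ (hz z hzU).1 (hz z hzU).2 m)
    · refine (summable_geometric_of_lt_one (Real.exp_pos _).le ?_).mul_left _
      rw [Real.exp_lt_one_iff]; have := Real.pi_pos; nlinarith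
    · intro m
      refine ((hgd (fun z => arg v z + (m + 1 : ℕ) * z) (hza.add (differentiable_id.const_mul _))
        fun z hz => ?_).add (hgd (fun z => arg v z - (m + 1 : ℕ) * z)
          (hza.sub (differentiable_id.const_mul _)) fun z hz => ?_)).sub
        ((hgd (fun z => (m + 1 : ℕ) * z) (differentiable_id.const_mul _)
          fun z hz => hne' m z hz).const_mul 2)
      · simpa using hne ((m + 1 : ℕ) : ℤ) z hz
      · have := hne (-((m + 1 : ℕ) : ℤ)) z hz
        rwa [Int.cast_neg, neg_mul, ← sub_eq_add_neg, Int.cast_natCast] at this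
  refine ((hdiff.differentiableAt (hUo.mem_nhds hwU)).congr_of_eventuallyEq
    ?_).differentiableWithinAt
  filter_upwards [hUo.mem_nhds hwU] with z hz
  simp only [Function.comp_apply, ofComplex_apply_of_im_pos (hpos z hz)]
  exact wpN_eq (arg_notMem hv ⟨z, hpos z hz⟩)


/-- The coefficients of `℘'` at a division point as an Eisenstein series of weight three. -/
def classC (v : ZMod p × ZMod p) (w : Fin 2 → ℤ) : ℂ :=
  if ((w 0 : ZMod p), (w 1 : ZMod p)) = v then 1 else 0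

omit [NeZero p] in
theorem coeffBound_classC (v : ZMod p × ZMod p) : XHLite.CoeffBound (classC v) := fun w => by
  rw [classC]; split_ifs <;> simp

theorem wdVal_eq (v : ZMod p × ZMod p) (τ : ℍ) :
    wdVal v τ =
      (-2 * (p : ℂ) ^ 3 / (scaleC * (2 * π * Complex.I))) * XHLite.eisC 3 (classC v) τ := by
  have hp := natCast_ne (p := p)
  have hp' : (p : ℤ) ≠ 0 := Int.natCast_ne_zero.mpr (NeZero.ne p)
  let e : ℤ × ℤ → (Fin 2 → ℤ) := fun x => ![(v.1.val : ℤ) - p * x.1, (v.2.val : ℤ) - p * x.2]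
  have he : Function.Injective e := fun x y h => by
    have h0 := congrFun h 0
    have h1 := congrFun h 1
    simp only [e, Matrix.cons_val_zero, Matrix.cons_val_one, sub_right_inj] at h0 h1
    exact Prod.ext (mul_left_cancel₀ hp' h0) (mul_left_cancel₀ hp' h1)
  have hsupp : Function.support (fun w => classC v w * EisensteinSeries.eisSummand 3 w τ) ⊆
      Set.range e := by
    intro w hw
    have hc : ((w 0 : ZMod p), (w 1 : ZMod p)) = v := by
      by_contra h
      simp [classC, h] at hw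
    obtain ⟨m, hm⟩ := exists_sub_val' (w 0) (congrArg Prod.fst hc)
    obtain ⟨n, hn⟩ := exists_sub_val' (w 1) (congrArg Prod.snd hc)
    refine ⟨(-m, -n), funext fun i => ?_⟩
    fin_cases i <;> simp [e, hm, hn]
  have hval : ∀ x, classC v (e x) = 1 := fun x => by simp [classC, e]
  have hrw : XHLite.eisC 3 (classC v) τ =
      ∑' x : ℤ × ℤ, EisensteinSeries.eisSummand 3 (e x) τ := by
    rw [XHLite.eisC, ← he.tsum_eq (by exact_mod_cast hsupp)]
    exact tsum_congr fun x => by rw [hval, one_mul]; norm_num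
  rw [hrw, wdVal, wpD, PeriodPair.derivWeierstrassP,
    ← ((tauPair τ).latticeEquivProd.toEquiv.symm).tsum_eq, ← tsum_mul_left, neg_div,
    ← tsum_div_const, ← tsum_neg]
  refine tsum_congr fun x => ?_
  show -((2 / (arg v τ - ((tauPair τ).latticeEquivProd.symm x).1) ^ 3) / _) = _
  rw [PeriodPair.latticeEquiv_symm_apply]
  simp only [EisensteinSeries.eisSummand, e, tauPair, Matrix.cons_val_zero, Matrix.cons_val_one,
    zpow_neg]
  rw [show arg v τ - ((x.1 : ℂ) * (τ : ℂ) + (x.2 : ℂ) * 1) =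
      ((((v.1.val : ℤ) - p * x.1 : ℤ) : ℂ) * τ + (((v.2.val : ℤ) - p * x.2 : ℤ) : ℂ)) / p by
    rw [arg]; push_cast; field_simp; ring]
  rw [div_pow, zpow_ofNat]
  field_simp

theorem wdVal_mdiff (v : ZMod p × ZMod p) : MDiff (wdVal v) := by
  have h := UpperHalfPlane.mdifferentiable_iff.mp
    (XHLite.eisC_mdiff (k := 3) le_rfl (coeffBound_classC v))
  rw [funext (wdVal_eq v)]
  exact UpperHalfPlane.mdifferentiable_iff.mpr (h.const_mul _)

theorem wdVal_bdd (v : ZMod p × ZMod p) : IsBoundedAtImInfty (wdVal v) := by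
  rw [funext (wdVal_eq v)]
  exact (Filter.const_boundedAtFilter _ _).mul
    (XHLite.eisC_bounded le_rfl (coeffBound_classC v))

/-- The Weierstrass equation in the normalised functions. -/
theorem wdVal_sq {v : ZMod p × ZMod p} (hv : v ≠ 0) (τ : ℍ) :
    wdVal v τ ^ 2 = 4 * wpVal v τ ^ 3 - ModularForm.E₄ τ / 12 * wpVal v τ +
      ModularForm.E₆ τ / 216 := by
  have h := (tauPair τ).derivWeierstrassP_sq _ (arg_notMem hv τ)
  rw [g2_tauPair, g3_tauPair] at h
  rw [wdVal, wpD, wpVal, wpN, div_pow, h]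
  have hc : (2 * (π : ℂ) * Complex.I) ≠ 0 := Complex.two_pi_I_ne_zero
  rw [show scaleC = (2 * (π : ℂ) * Complex.I) ^ 2 from rfl]
  generalize 2 * (π : ℂ) * Complex.I = c at hc ⊢
  field_simp
  ring

theorem wpVal_bdd {v : ZMod p × ZMod p} (hv : v ≠ 0) : IsBoundedAtImInfty (wpVal v) := by
  have h1 := wdVal_bdd v
  have h4 := ModularFormClass.bdd_at_infty ModularForm.E₄
  have h6 := ModularFormClass.bdd_at_infty ModularForm.E₆
  rw [UpperHalfPlane.isBoundedAtImInfty_iff] at h1 h4 h6 ⊢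
  obtain ⟨B, a, hB⟩ := h1
  obtain ⟨B4, a4, hB4⟩ := h4
  obtain ⟨B6, a6, hB6⟩ := h6
  refine ⟨1 + |B4| + |B6| + B ^ 2, max a (max a4 a6), fun τ hτ => ?_⟩
  simp only [max_le_iff] at hτ
  have e := wdVal_sq hv τ
  set x := wpVal v τ
  have hb := hB τ hτ.1
  have hb4 := (hB4 τ hτ.2.1).trans (le_abs_self B4)
  have hb6 := (hB6 τ hτ.2.2).trans (le_abs_self B6)
  by_contra hlt
  rw [not_le] at hlt
  have h4x : 4 * ‖x‖ ^ 3 ≤ B ^ 2 + |B4| / 12 * ‖x‖ + |B6| / 216 := by
    calc 4 * ‖x‖ ^ 3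
        = ‖wdVal v τ ^ 2 + ModularForm.E₄ τ / 12 * x - ModularForm.E₆ τ / 216‖ := by
          rw [e, show 4 * x ^ 3 - ModularForm.E₄ τ / 12 * x + ModularForm.E₆ τ / 216 +
            ModularForm.E₄ τ / 12 * x - ModularForm.E₆ τ / 216 = 4 * x ^ 3 by ring, norm_mul,
            norm_pow, Complex.norm_ofNat]
      _ ≤ ‖wdVal v τ ^ 2‖ + ‖ModularForm.E₄ τ / 12 * x‖ + ‖ModularForm.E₆ τ / 216‖ :=
          (norm_sub_le _ _).trans (add_le_add_left (norm_add_le _ _) _)
      _ ≤ _ := by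
          rw [norm_mul, norm_div, norm_div, norm_pow, Complex.norm_ofNat, Complex.norm_ofNat]
          gcongr
  have h1le : 1 ≤ ‖x‖ := by nlinarith [abs_nonneg B4, abs_nonneg B6, sq_nonneg B]
  have hsq : ‖x‖ ≤ ‖x‖ ^ 2 := by nlinarith
  nlinarith [abs_nonneg B4, abs_nonneg B6, sq_nonneg B, mul_le_mul_of_nonneg_right
    (show 1 + |B4| + |B6| + B ^ 2 ≤ ‖x‖ ^ 2 by linarith) (norm_nonneg x)]

theorem wpN_add_lattice' {a b : ℤ} {v : ZMod p × ZMod p}
    (h : ((a : ZMod p), (b : ZMod p)) = v) (τ : ℍ) :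
    wpN (((a : ℂ) * τ + b) / p) τ = wpVal v τ ∧ wpD (((a : ℂ) * τ + b) / p) τ = wdVal v τ := by
  obtain ⟨m, n, e⟩ := intArg_eq (p := p) a b τ
  rw [e, wpN_add_lattice, wpD_add_lattice, h]
  exact ⟨rfl, rfl⟩

theorem arg_smul (v : ZMod p × ZMod p) (γ : SL(2, ℤ)) (τ : ℍ) :
    ∃ a b : ℤ, ((a : ZMod p), (b : ZMod p)) = rowAct v γ ∧
      arg v (γ • τ : ℍ) =
        ((a : ℂ) * τ + b) / p / UpperHalfPlane.denom (γ : GL (Fin 2) ℝ) τ := by
  refine ⟨v.1.val * γ 0 0 + v.2.val * γ 1 0, v.1.val * γ 0 1 + v.2.val * γ 1 1,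
    by simp [rowAct], ?_⟩
  have hc0 : UpperHalfPlane.denom (γ : GL (Fin 2) ℝ) (τ : ℂ) ≠ 0 :=
    UpperHalfPlane.denom_ne_zero _ τ
  have hp := natCast_ne (p := p)
  have hc' : UpperHalfPlane.denom (γ : GL (Fin 2) ℝ) (τ : ℂ) = (γ 1 0 : ℂ) * τ + (γ 1 1 : ℂ) := by
    rw [ModularGroup.denom_apply]
  have hsmul : ((γ • τ : ℍ) : ℂ) =
      ((γ 0 0 : ℂ) * τ + (γ 0 1 : ℂ)) / UpperHalfPlane.denom (γ : GL (Fin 2) ℝ) (τ : ℂ) := by
    rw [UpperHalfPlane.coe_specialLinearGroup_apply, ModularGroup.denom_apply]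
    simp
  rw [arg, hsmul]
  push_cast
  field_simp
  rw [hc']
  ring

theorem wpVal_slash (v : ZMod p × ZMod p) (γ : SL(2, ℤ)) :
    wpVal v ∣[(2 : ℤ)] γ = wpVal (rowAct v γ) := by
  funext τ
  obtain ⟨a, b, hab, h⟩ := arg_smul v γ τ
  rw [ModularForm.SL_slash_apply, wpVal, h, wpN_smul, (wpN_add_lattice' hab τ).1, zpow_neg,
    mul_comm, ← mul_assoc, ← zpow_natCast, Nat.cast_ofNat,
    inv_mul_cancel₀ (zpow_ne_zero _ (UpperHalfPlane.denom_ne_zero _ τ)), one_mul]

theorem wdVal_slash (v : ZMod p × ZMod p) (γ : SL(2, ℤ)) :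
    wdVal v ∣[(3 : ℤ)] γ = wdVal (rowAct v γ) := by
  funext τ
  obtain ⟨a, b, hab, h⟩ := arg_smul v γ τ
  rw [ModularForm.SL_slash_apply, wdVal, h, wpD_smul, (wpN_add_lattice' hab τ).2, zpow_neg,
    mul_comm, ← mul_assoc, ← zpow_natCast, Nat.cast_ofNat,
    inv_mul_cancel₀ (zpow_ne_zero _ (UpperHalfPlane.denom_ne_zero _ τ)), one_mul]

theorem arg_neg_lattice (v : ZMod p × ZMod p) (τ : ℍ) :
    ∃ m n : ℤ, arg (-v) τ = -arg v τ + ((m : ℂ) * τ + n) := by
  obtain ⟨m, n, e⟩ := intArg_eq (p := p) (-(v.1.val : ℤ)) (-(v.2.val : ℤ)) τ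
  refine ⟨-m, -n, ?_⟩
  have e' : (((-(v.1.val : ℤ) : ℤ) : ZMod p), ((-(v.2.val : ℤ) : ℤ) : ZMod p)) = -v := by
    ext <;> simp
  rw [e'] at e
  rw [show -arg v τ = arg (-v) τ + ((m : ℂ) * τ + n) by rw [← e, arg]; push_cast; ring]
  push_cast
  ring

theorem wpVal_neg (v : ZMod p × ZMod p) (τ : ℍ) :
    wpVal (-v) τ = wpVal v τ ∧ wdVal (-v) τ = -wdVal v τ := by
  obtain ⟨m, n, e⟩ := arg_neg_lattice v τ
  rw [wpVal, wdVal, e, wpN_add_lattice, wpD_add_lattice, wpN, wpD, PeriodPair.weierstrassP_neg,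
    PeriodPair.derivWeierstrassP_neg, neg_div]
  exact ⟨rfl, rfl⟩

/-- `℘` separates division points up to sign. -/
theorem eq_or_neg_of_wpVal_eq {v w : ZMod p × ZMod p} (hv : v ≠ 0) (hw : w ≠ 0) {τ : ℍ}
    (h : wpVal v τ = wpVal w τ) : v = w ∨ v = -w := by
  set L := tauPair τ
  have he : L.weierstrassP (arg v τ) = L.weierstrassP (arg w τ) := by
    simp only [wpVal, wpN] at h
    field_simp [scaleC_ne_zero] at h
    exact h
  have h2 : (L.derivWeierstrassP (arg v τ) - L.derivWeierstrassP (arg w τ)) *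
      (L.derivWeierstrassP (arg v τ) + L.derivWeierstrassP (arg w τ)) = 0 := by
    linear_combination L.derivWeierstrassP_sq _ (arg_notMem hv τ) -
      L.derivWeierstrassP_sq _ (arg_notMem hw τ) +
      (4 * (L.weierstrassP (arg v τ) ^ 2 + L.weierstrassP (arg v τ) * L.weierstrassP (arg w τ) +
        L.weierstrassP (arg w τ) ^ 2) - L.g₂) * he
  have key : ∀ x : ZMod p × ZMod p, x ≠ 0 →
      L.weierstrassP (arg v τ) = L.weierstrassP (arg x τ) →
      L.derivWeierstrassP (arg v τ) = L.derivWeierstrassP (arg x τ) → v = x := by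
    intro x hx h0 h1
    by_contra hne
    have hpt : wpHom L (arg v τ) = wpHom L (arg x τ) := by
      show wpPoint L _ = wpPoint L _
      rw [wpPoint_of_notMem L (arg_notMem hv τ), wpPoint_of_notMem L (arg_notMem hx τ),
        WeierstrassCurve.Affine.Point.some.injEq]
      exact ⟨h0, by rw [h1]⟩
    rw [wpHom_eq_iff] at hpt
    obtain ⟨m, n, e⟩ := intArg_eq (p := p) ((v.1.val : ℤ) - x.1.val) ((v.2.val : ℤ) - x.2.val) τ
    have e' : ((((v.1.val : ℤ) - x.1.val : ℤ) : ZMod p), (((v.2.val : ℤ) - x.2.val : ℤ) : ZMod p)) =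
        v - x := by ext <;> simp
    rw [e'] at e
    refine arg_notMem (sub_ne_zero.mpr hne) τ
      ((L.lattice.add_mem_iff_left (mem_tauPair.mpr ⟨m, n, rfl⟩)).mp ?_)
    rw [← e]
    convert hpt using 1
    rw [arg, arg]
    push_cast
    ring
  rcases mul_eq_zero.mp h2 with h3 | h3
  · exact Or.inl (key w hw he (sub_eq_zero.mp h3))
  · have hn := wpVal_neg w τ
    simp only [wpVal, wdVal, wpN, wpD] at hn
    have hs := scaleC_ne_zero
    have hc : (2 * (π : ℂ) * Complex.I) ≠ 0 := Complex.two_pi_I_ne_zero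
    have h0 : L.weierstrassP (arg (-w) τ) = L.weierstrassP (arg w τ) := (div_left_inj' hs).mp hn.1
    have h1 : L.derivWeierstrassP (arg (-w) τ) = -L.derivWeierstrassP (arg w τ) :=
      (div_left_inj' (mul_ne_zero hs hc)).mp (hn.2.trans (neg_div _ _).symm)
    exact Or.inr (key (-w) (neg_ne_zero.mpr hw) (he.trans h0.symm)
      (by rw [h1]; exact eq_neg_of_add_eq_zero_left h3))

/-- `℘'` has no zero at a point not of order two. -/
theorem wdVal_ne_zero {v : ZMod p × ZMod p} (hv : v + v ≠ 0) (τ : ℍ) : wdVal v τ ≠ 0 := by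
  intro h
  have hv0 : v ≠ 0 := fun e => hv (by rw [e, add_zero])
  set L := tauPair τ
  have h1 : L.derivWeierstrassP (arg v τ) = 0 := by
    rw [wdVal, wpD, div_eq_zero_iff] at h
    exact h.resolve_right (mul_ne_zero scaleC_ne_zero Complex.two_pi_I_ne_zero)
  have hneg : -arg v τ ∉ L.lattice := fun hm => arg_notMem hv0 τ (neg_mem_iff.mp hm)
  have hpt : wpHom L (arg v τ) = wpHom L (-arg v τ) := by
    show wpPoint L _ = wpPoint L _
    rw [wpPoint_of_notMem L (arg_notMem hv0 τ), wpPoint_of_notMem L hneg,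
      WeierstrassCurve.Affine.Point.some.injEq, L.weierstrassP_neg, L.derivWeierstrassP_neg, h1,
      neg_zero]
    exact ⟨rfl, rfl⟩
  rw [wpHom_eq_iff] at hpt
  obtain ⟨m, n, e⟩ := intArg_eq (p := p) ((v.1.val : ℤ) + v.1.val) ((v.2.val : ℤ) + v.2.val) τ
  have e' : ((((v.1.val : ℤ) + v.1.val : ℤ) : ZMod p), (((v.2.val : ℤ) + v.2.val : ℤ) : ZMod p)) =
      v + v := by ext <;> simp
  rw [e'] at e
  refine arg_notMem hv τ ((L.lattice.add_mem_iff_left (mem_tauPair.mpr ⟨m, n, rfl⟩)).mp ?_)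
  rw [← e]
  convert hpt using 1
  rw [arg]
  push_cast
  ring

end Fermat.Agent.Row48.Coefficients
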