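import Mathlib.NumberTheory.ModularForms.EisensteinSeries.QExpansion
import Fermat.Agent.Row48.Coefficients.Division

/-!
# The series of `℘` and `℘'` at `τ / p` in `q ^ (1 / p)`
-/

set_option autoImplicit false

noncomputable section

open Filter Topology Complex UpperHalfPlane
open scoped Real Manifold MatrixGroups Nat

namespace Fermat.Agent.Row48.Coefficients

open Mazur.Moduli WeightOne X0Analytic

variable (p : ℕ)

/-- `∑ d ^ k` over the divisors `d` of `n` with `n / d ≡ r (mod p)`. -/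
def lamCoeff (k r n : ℕ) : ℤ :=
  ∑ d ∈ n.divisors with n / d % p = r % p, (d : ℤ) ^ k

theorem lamCoeff_zero (k r : ℕ) : lamCoeff p k r 0 = 0 := by simp [lamCoeff]

variable {p} [NeZero p]

/-- Lambert series over an arithmetic progression. -/
theorem hasSum_lambert (k : ℕ) (hk : k ≠ 0) {r : ℕ} (hr : 1 ≤ r) (hrp : r ≤ p) {G : ℂ → ℂ}
    (hG : ∀ u : ℂ, ‖u‖ < 1 → HasSum (fun d : ℕ => (d : ℂ) ^ k * u ^ d) (G u)) {Q : ℂ}
    (hQ : ‖Q‖ < 1) :
    ∃ S : ℂ, HasSum (fun t : ℕ => G (Q ^ (p * t + r))) S ∧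
      HasSum (fun n : ℕ => (lamCoeff p k r n : ℂ) • Q ^ n) S := by
  set F : ℕ+ × ℕ+ → ℂ := fun c =>
    if (c.1 : ℕ) % p = r % p then (c.2 : ℂ) ^ k * Q ^ (c.1 * c.2 : ℕ) else 0 with hF
  have hFs : Summable F := by
    have hs := summable_prod_mul_pow (𝕜 := ℝ) k (r := ‖Q‖) (by simpa using hQ)
    refine Summable.of_norm_bounded hs fun c => ?_
    rw [hF]
    dsimp only
    split_ifs
    · simp
    · rw [norm_zero]; positivity
  refine ⟨∑' c, F c, ?_, ?_⟩
  · let G' : ℕ+ → ℂ := fun j => if (j : ℕ) % p = r % p then G (Q ^ (j : ℕ)) else 0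
    have hrow : ∀ j : ℕ+, HasSum (fun d : ℕ+ => F (j, d)) (G' j) := by
      intro j
      simp only [hF, G']
      split_ifs
      · have h := hG (Q ^ (j : ℕ)) (by
          rw [norm_pow]; exact pow_lt_one₀ (norm_nonneg _) hQ j.ne_zero)
        rw [← hasSum_nat_add_iff' 1] at h
        simp only [Finset.sum_range_one, Nat.cast_zero, zero_pow hk, zero_mul, sub_zero] at h
        refine (Equiv.pnatEquivNat.symm.hasSum_iff).mp (h.congr_fun fun d => ?_)
        simp only [Function.comp_apply, Equiv.pnatEquivNat_symm_apply, Nat.succPNat_coe,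
          Nat.succ_eq_add_one, ← pow_mul]
      · exact hasSum_zero
    have h1 := hFs.hasSum.prod_fiberwise hrow
    let e : ℕ → ℕ+ := fun t => ⟨p * t + r, by omega⟩
    have he : Function.Injective e := fun a b h => by
      have h' : p * a + r = p * b + r := congrArg Subtype.val h
      exact Nat.eq_of_mul_eq_mul_left (NeZero.pos p) (by omega)
    have hrange : ∀ j, j ∉ Set.range e → G' j = 0 := by
      intro j hj
      simp only [G']
      rw [if_neg]
      intro hmod
      refine hj ⟨((j : ℕ) - r) / p, ?_⟩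
      have hle : r ≤ j := by
        by_contra hlt
        rw [not_le] at hlt
        have hjp : (j : ℕ) % p = j := Nat.mod_eq_of_lt (lt_of_lt_of_le hlt hrp)
        rcases eq_or_lt_of_le hrp with rfl | hrlt
        · rw [Nat.mod_self, hjp] at hmod; exact j.ne_zero hmod
        · rw [hjp, Nat.mod_eq_of_lt hrlt] at hmod; omega
      refine Subtype.ext ?_
      show p * (((j : ℕ) - r) / p) + r = j
      rw [Nat.mul_div_cancel' ((Nat.modEq_iff_dvd' hle).mp hmod.symm), Nat.sub_add_cancel hle]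
    refine ((he.hasSum_iff hrange).mpr h1).congr_fun fun t => ?_
    show G (Q ^ (p * t + r)) = if (p * t + r) % p = r % p then G (Q ^ (p * t + r)) else 0
    rw [if_pos (by rw [Nat.mul_add_mod])]
  · have hsig := ((sigmaAntidiagonalEquivProd.hasSum_iff).mpr hFs.hasSum).sigma
      fun n => hasSum_fintype _
    have hn : ∀ n : ℕ+, (∑ x : Nat.divisorsAntidiagonal (n : ℕ),
        (F ∘ sigmaAntidiagonalEquivProd) ⟨n, x⟩) = (lamCoeff p k r n : ℂ) • Q ^ (n : ℕ) := by
      intro n
      have e : ∀ x : Nat.divisorsAntidiagonal (n : ℕ),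
          (F ∘ sigmaAntidiagonalEquivProd) ⟨n, x⟩ =
            (fun y : ℕ × ℕ => (if y.1 % p = r % p then (y.2 : ℂ) ^ k else 0) * Q ^ (n : ℕ))
              x.1 := by
        intro x
        simp only [Function.comp_apply, hF, sigmaAntidiagonalEquivProd]
        have hx := divisorsAntidiagonalFactors_eq x
        simp only [divisorsAntidiagonalFactors, PNat.mk_coe] at hx ⊢
        show (if _ then _ * Q ^ (x.1.1 * x.1.2) else 0) = _
        rw [hx, ite_mul, zero_mul]
        rfl
      simp only [e]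
      rw [Finset.sum_coe_sort ((n : ℕ).divisorsAntidiagonal)
        (fun y : ℕ × ℕ => (if y.1 % p = r % p then (y.2 : ℂ) ^ k else 0) * Q ^ (n : ℕ)),
        ← Finset.sum_mul, smul_eq_mul,
        Nat.sum_divisorsAntidiagonal' (fun a d => if a % p = r % p then (d : ℂ) ^ k else 0)]
      simp [lamCoeff, Finset.sum_filter, apply_ite]
    simp only [hn] at hsig
    have hnat := (Equiv.pnatEquivNat.symm.hasSum_iff).mpr hsig
    rw [← hasSum_nat_add_iff' 1]
    simp only [Finset.sum_range_one, pow_zero, lamCoeff_zero, Int.cast_zero, zero_smul, sub_zero]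
    exact hnat.congr_fun fun n => by simp

theorem hasSum_geomDerivTwo {u : ℂ} (hu : ‖u‖ < 1) :
    HasSum (fun d : ℕ => (d : ℂ) ^ 2 * u ^ d) (geomDerivTwo u) := by
  have h2 := (hasSum_choose_mul_geometric_of_norm_lt_one 2 hu).mul_left 2
  have h1 := (hasSum_choose_mul_geometric_of_norm_lt_one 1 hu).mul_left 3
  have h0 := hasSum_choose_mul_geometric_of_norm_lt_one 0 hu
  have hne : (1 : ℂ) - u ≠ 0 := sub_ne_zero.mpr fun h => by simp [← h] at hu
  convert! (h2.sub h1).add h0 using 1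
  · funext d
    have e : ((d + 2).choose 2 : ℂ) * 2 = (d + 2) * (d + 1) := by
      have hh : (d + 2).choose 2 * 2 = (d + 2) * (d + 1) := by
        rw [Nat.choose_two_right]
        exact Nat.div_mul_cancel (even_iff_two_dvd.mp (Nat.even_mul_pred_self _))
      exact_mod_cast hh
    simp only [Nat.choose_one_right, Nat.choose_zero_right, Nat.cast_add, Nat.cast_one, one_mul]
    linear_combination -(u ^ d) * e
  · rw [geomDerivTwo]; field_simp; ring

theorem geomDerivTwo_inv {u : ℂ} (hu : u ≠ 0) : geomDerivTwo u⁻¹ = -geomDerivTwo u := by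
  rcases eq_or_ne u 1 with rfl | h1
  · simp [geomDerivTwo]
  have : (1 - u) ≠ 0 := sub_ne_zero.mpr (Ne.symm h1)
  have h2 : u - 1 ≠ 0 := sub_ne_zero.mpr h1
  rw [geomDerivTwo, geomDerivTwo]
  field_simp
  ring

omit [NeZero p] in
theorem qp_eq_ee (τ : ℍ) : qp p τ = ee ((τ : ℂ) / p) := by
  rw [qp, Function.Periodic.qParam, ee, Complex.ofReal_natCast]
  congr 1
  ring

omit [NeZero p] in
theorem ee_ratio (τ : ℍ) (j : ℕ) : ee ((j : ℂ) * ((τ : ℂ) / p)) = qp p τ ^ j := by
  rw [ee_nat_mul, qp_eq_ee]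

/-- The division point `τ / p`. -/
def baseVec (p : ℕ) : ZMod p × ZMod p := (1, 0)

omit [NeZero p] in
theorem baseVec_ne (hp : 2 < p) : baseVec p ≠ 0 ∧ baseVec p + baseVec p ≠ 0 := by
  have : Fact (1 < p) := ⟨by omega⟩
  refine ⟨fun h => one_ne_zero (congrArg Prod.fst h), fun h => ?_⟩
  have h2 : (((2 : ℕ) : ZMod p)) = 0 := by
    have := congrArg Prod.fst h
    simpa [baseVec, one_add_one_eq_two] using this
  rw [ZMod.natCast_eq_zero_iff] at h2
  have := Nat.le_of_dvd two_pos h2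
  omega

omit [NeZero p] in
theorem arg_baseVec (hp : 2 < p) (τ : ℂ) : arg (baseVec p) τ = τ / p := by
  have : Fact (1 < p) := ⟨by omega⟩
  simp [arg, baseVec, ZMod.val_one]

/-- The coefficients of `℘ - 1 / 12` at `τ / p`. -/
def wpCoeff (p n : ℕ) : ℤ :=
  lamCoeff p 1 1 n + lamCoeff p 1 (p - 1) n - 2 * lamCoeff p 1 p n

/-- The coefficients of `℘'` at `τ / p`. -/
def wdCoeff (p n : ℕ) : ℤ := lamCoeff p 2 1 n - lamCoeff p 2 (p - 1) n

/-- **The series of `℘` at `τ / p`.** -/
theorem hasSum_wpVal (hp : 2 < p) (τ : ℍ) :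
    HasSum (fun n : ℕ => (wpCoeff p n : ℂ) • qp p τ ^ n) (wpVal (baseVec p) τ - 1 / 12) := by
  set Q := qp p τ with hQd
  have hQ : ‖Q‖ < 1 := norm_qp_lt_one p τ
  have hG : ∀ u : ℂ, ‖u‖ < 1 → HasSum (fun d : ℕ => (d : ℂ) ^ 1 * u ^ d) (geomDeriv u) :=
    fun u hu => (hasSum_geomDeriv hu).congr_fun fun d => by rw [pow_one]
  obtain ⟨A, hA, hA'⟩ := hasSum_lambert (p := p) 1 one_ne_zero (r := 1) le_rfl (by omega) hG hQ
  obtain ⟨B, hB, hB'⟩ :=
    hasSum_lambert (p := p) 1 one_ne_zero (r := p - 1) (by omega) (by omega) hG hQ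
  obtain ⟨C, hC, hC'⟩ := hasSum_lambert (p := p) 1 one_ne_zero (r := p) (by omega) le_rfl hG hQ
  have hv := baseVec_ne hp
  have hrows := hasSum_pairRow (arg_notMem hv.1 τ)
  rw [arg_baseVec hp] at hrows
  have hA1 := hA
  rw [← hasSum_nat_add_iff' 1] at hA1
  simp only [Finset.sum_range_one, mul_zero, zero_add, pow_one] at hA1
  have hsum := (hA1.add hB).sub (hC.mul_left 2)
  have hterm : ∀ m : ℕ, pairRow ((τ : ℂ) / p) τ m = geomDeriv (Q ^ (p * (m + 1) + 1)) +
      geomDeriv (Q ^ (p * m + (p - 1))) - 2 * geomDeriv (Q ^ (p * m + p)) := by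
    intro m
    have hp0 := natCast_ne (p := p)
    rw [pairRow]
    have e1 : (τ : ℂ) / p + (m + 1 : ℕ) * (τ : ℂ) = ((p * (m + 1) + 1 : ℕ) : ℂ) *
        ((τ : ℂ) / p) := by
      push_cast; field_simp; ring
    have e2 : (τ : ℂ) / p - (m + 1 : ℕ) * (τ : ℂ) =
        -(((p * m + (p - 1) : ℕ) : ℂ) * ((τ : ℂ) / p)) := by
      rw [show p * m + (p - 1) = p * m + p - 1 by omega,
        Nat.cast_sub (by have := NeZero.pos p; nlinarith : 1 ≤ p * m + p)]
      push_cast; field_simp; ring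
    have e3 : ((m + 1 : ℕ) : ℂ) * (τ : ℂ) = ((p * m + p : ℕ) : ℂ) * ((τ : ℂ) / p) := by
      push_cast; field_simp
    rw [e1, e2, e3, ee_neg, geomDeriv_inv (ee_ne_zero _), ee_ratio, ee_ratio, ee_ratio]
  have huniq := hrows.unique (hsum.congr_fun hterm)
  have hval : wpVal (baseVec p) τ - 1 / 12 = A + B - 2 * C := by
    rw [wpVal, arg_baseVec hp]
    rw [← qp_eq_ee] at huniq
    linear_combination huniq
  rw [hval]
  refine ((hA'.add hB').sub (hC'.mul_left 2)).congr_fun fun n => ?_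
  simp only [wpCoeff, smul_eq_mul]
  push_cast
  ring

theorem tsum_cube {w : ℂ} (hw : w.im ≠ 0) :
    HasSum (fun n : ℤ => -2 / (w + n) ^ 3) ((2 * π * Complex.I) ^ 3 * geomDerivTwo (ee w)) := by
  have key : ∀ z : ℂ, 0 < z.im →
      HasSum (fun n : ℤ => -2 / (z + n) ^ 3) ((2 * π * Complex.I) ^ 3 * geomDerivTwo (ee z)) := by
    intro z hz
    have hs : Summable fun n : ℤ => 1 / (z + n) ^ 3 := by
      refine (EisensteinSeries.linear_right_summable z 1 (k := 3) (by norm_num)).congr fun n => ?_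
      simp [zpow_ofNat]
    have h := EisensteinSeries.qExpansion_identity (k := 2) (by norm_num) ⟨z, hz⟩
    simp only at h
    have hn : ‖ee z‖ < 1 := by
      rw [norm_ee, Real.exp_lt_one_iff]
      have := Real.pi_pos
      nlinarith
    rw [show (∑' n : ℕ, (n : ℂ) ^ 2 * cexp (2 * π * Complex.I * z) ^ n) = geomDerivTwo (ee z) from
      (hasSum_geomDerivTwo hn).tsum_eq] at h
    have h2 := hs.hasSum.mul_left (-2)
    rw [show ∑' n : ℤ, 1 / (z + n) ^ 3 = _ from h] at h2
    convert! h2 using 1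
    · funext n; ring
    · norm_num [Nat.factorial]; ring
  rcases lt_or_gt_of_ne hw with h | h
  · have h' := key (-w) (by simpa using h)
    rw [ee_neg, geomDerivTwo_inv (ee_ne_zero w)] at h'
    have h2 := ((Equiv.neg ℤ).hasSum_iff.mpr h').neg
    convert! h2 using 1
    · funext n
      simp only [Function.comp_apply, Equiv.neg_apply, Int.cast_neg]
      rw [show -w + -(n : ℂ) = -(w + n) by ring, Odd.neg_pow (by decide), div_neg, neg_neg]
    · ring
  · exact key w h

/-- **The series of `℘'` at `τ / p`.** -/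
theorem hasSum_wdVal (hp : 2 < p) (τ : ℍ) :
    HasSum (fun n : ℕ => (wdCoeff p n : ℂ) • qp p τ ^ n) (wdVal (baseVec p) τ) := by
  set Q := qp p τ with hQd
  have hQ : ‖Q‖ < 1 := norm_qp_lt_one p τ
  obtain ⟨A, hA, hA'⟩ := hasSum_lambert (p := p) 2 two_ne_zero (r := 1) le_rfl (by omega)
    (fun u => hasSum_geomDerivTwo) hQ
  obtain ⟨B, hB, hB'⟩ := hasSum_lambert (p := p) 2 two_ne_zero (r := p - 1) (by omega) (by omega)
    (fun u => hasSum_geomDerivTwo) hQ
  set z : ℂ := (τ : ℂ) / p with hz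
  set c : ℂ := (2 * π * Complex.I) ^ 3 with hc
  have hc0 : c ≠ 0 := pow_ne_zero 3 Complex.two_pi_I_ne_zero
  have hp0 := natCast_ne (p := p)
  have him : ∀ m : ℤ, (z - (m : ℂ) * τ).im ≠ 0 := by
    intro m h
    have h' : ((1 : ℝ) / p - m) * τ.im = 0 := by
      rw [sub_mul]
      simp [hz] at h
      linear_combination h
    rcases mul_eq_zero.mp h' with h1 | h1
    · have hp1 : (p : ℝ) ≠ 0 := by exact_mod_cast NeZero.ne p
      have h2 : (1 : ℤ) = m * p := by
        have : (1 : ℝ) = m * p := by field_simp at h1; linarith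
        exact_mod_cast this
      have := Int.eq_one_of_mul_eq_one_left (by positivity) h2.symm
      omega
    · exact τ.im_pos.ne' h1
  have hrows : HasSum (fun m : ℤ => c * geomDerivTwo (ee (z - m * τ)))
      (PeriodPair.derivWeierstrassP (tauPair τ) z) := by
    have h := ((tauPair τ).latticeEquivProd.toEquiv.symm.hasSum_iff).mpr
      ((tauPair τ).hasSum_derivWeierstrassP z)
    refine h.prod_fiberwise fun m => ?_
    refine ((Equiv.neg ℤ).hasSum_iff.mpr (tsum_cube (him m))).congr_fun fun n => ?_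
    show -2 / (z - ((tauPair τ).latticeEquivProd.symm (m, n)).1) ^ 3 = -2 / _ ^ 3
    rw [PeriodPair.latticeEquiv_symm_apply]
    simp only [tauPair, mul_one, Equiv.neg_apply, Int.cast_neg]
    congr 2
    ring
  have h0 : ∀ t : ℕ, geomDerivTwo (ee (z - (-((t : ℕ) : ℤ) : ℤ) * τ)) =
      geomDerivTwo (Q ^ (p * t + 1)) := fun t => by
    rw [← ee_ratio]; congr 2; push_cast; rw [hz]; field_simp; ring
  have h1 : ∀ t : ℕ, geomDerivTwo (ee (z - (((t : ℕ) : ℤ) + 1 : ℤ) * τ)) =
      -geomDerivTwo (Q ^ (p * t + (p - 1))) := fun t => by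
    rw [← ee_ratio, ← geomDerivTwo_inv (ee_ne_zero _), ← ee_neg]
    congr 2
    rw [Nat.cast_add, Nat.cast_sub (by omega : 1 ≤ p), hz]; push_cast; field_simp; ring
  have hAll : HasSum (fun m : ℤ => c * geomDerivTwo (ee (z - m * τ))) (c * (A - B)) := by
    have hneg := (Equiv.neg ℤ).hasSum_iff
      (f := fun m : ℤ => c * geomDerivTwo (ee (z - m * τ))) (a := c * (A - B))
    rw [← hneg, mul_sub, sub_eq_add_neg]
    refine HasSum.of_nat_of_neg_add_one ((hA.mul_left c).congr_fun fun t => ?_)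
      ((hB.mul_left c).neg.congr_fun fun t => ?_)
    · show c * _ = _
      rw [Equiv.neg_apply]; exact congrArg (c * ·) (h0 t)
    · show c * _ = _
      rw [Equiv.neg_apply, neg_neg, ← mul_neg]
      exact congrArg (c * ·) (h1 t)
  have hval : wdVal (baseVec p) τ = A - B := by
    rw [wdVal, wpD, arg_baseVec hp, hrows.unique hAll, show scaleC * (2 * π * Complex.I) = c by
      rw [hc, scaleC]; ring, mul_div_cancel_left₀ _ hc0]
  rw [hval]
  refine (hA'.sub hB').congr_fun fun n => ?_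
  simp only [wdCoeff, smul_eq_mul]
  push_cast
  ring

end Fermat.Agent.Row48.Coefficients
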