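import Fermat.Prelude.Thm_ModularCurve_coeffMap_qExpand
import Fermat.Agent.X0Analytic.Theta
import Fermat.Agent.Row48.Coefficients.Series

/-!
# Level one: monomials in `E₄`, `E₆`, and the integral series at period `p`
-/

set_option autoImplicit false

noncomputable section

open Filter Topology UpperHalfPlane ModularForm
open scoped Real Manifold MatrixGroups ModularForm

namespace Fermat.Agent.Row48.Coefficients

open X0Analytic

/-- A form of level one, as a function. -/
structure IsLevel (w : ℤ) (F : ℍ → ℂ) : Prop where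
  holo : MDiff F
  slash : ∀ γ : SL(2, ℤ), F ∣[w] γ = F
  bdd : IsBoundedAtImInfty F

theorem IsLevel.of_form {w : ℤ} (f : ModularForm 𝒮ℒ w) : IsLevel w ⇑f :=
  ⟨f.holo', fun γ => SlashInvariantFormClass.slash_action_eq f _ ⟨γ, rfl⟩,
    ModularFormClass.bdd_at_infty f⟩

/-- The form of a level one function. -/
def IsLevel.toForm {w : ℤ} {F : ℍ → ℂ} (h : IsLevel w F) : ModularForm 𝒮ℒ w where
  toFun := F
  slash_action_eq' := fun _ ⟨γ, hγ⟩ => hγ ▸ h.slash γ
  holo' := h.holo
  bdd_at_cusps' {c} hc := by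
    rw [Subgroup.IsArithmetic.isCusp_iff_isCusp_SL2Z] at hc
    rw [OnePoint.isBoundedAt_iff_forall_SL2Z hc]
    intro γ _
    rw [h.slash γ]
    exact h.bdd

theorem IsLevel.mul {w w' : ℤ} {F F' : ℍ → ℂ} (h : IsLevel w F) (h' : IsLevel w' F') :
    IsLevel (w + w') (F * F') :=
  ⟨h.holo.mul h'.holo, fun γ => by rw [ModularForm.mul_slash_SL2, h.slash, h'.slash],
    Filter.BoundedAtFilter.mul h.bdd h'.bdd⟩

theorem IsLevel.const (c : ℂ) : IsLevel 0 (fun _ : ℍ => c) :=
  ⟨mdifferentiable_const, fun γ => by funext τ; simp [ModularForm.SL_slash_apply],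
    Filter.const_boundedAtFilter _ c⟩

theorem IsLevel.pow {w : ℤ} {F : ℍ → ℂ} (h : IsLevel w F) : ∀ a : ℕ, IsLevel (a * w) (F ^ a)
  | 0 => by
    rw [pow_zero, Nat.cast_zero, zero_mul]
    exact IsLevel.const 1
  | a + 1 => by
    have := (h.pow a).mul h
    rw [pow_succ, show ((a + 1 : ℕ) : ℤ) * w = (a : ℤ) * w + w by push_cast; ring]
    exact this

/-- `E₄ ^ a E₆ ^ b`. -/
def monFn (x : ℕ × ℕ) : ℍ → ℂ :=
  ((ModularForm.E₄ : ℍ → ℂ) ^ x.1) * ((ModularForm.E₆ : ℍ → ℂ) ^ x.2)

theorem isLevel_monFn (x : ℕ × ℕ) : IsLevel (4 * x.1 + 6 * x.2) (monFn x) := by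
  have h := ((IsLevel.of_form ModularForm.E₄).pow x.1).mul
    ((IsLevel.of_form ModularForm.E₆).pow x.2)
  rw [mul_comm (4 : ℤ), mul_comm (6 : ℤ)]
  exact h

/-- The exponents of weight `w`. -/
def monIndex (w : ℤ) : Finset (ℕ × ℕ) :=
  (Finset.range (w.toNat + 1) ×ˢ Finset.range (w.toNat + 1)).filter
    fun x => 4 * (x.1 : ℤ) + 6 * x.2 = w

theorem mem_monIndex {w : ℤ} {x : ℕ × ℕ} :
    x ∈ monIndex w ↔ 4 * (x.1 : ℤ) + 6 * x.2 = w := by
  simp only [monIndex, Finset.mem_filter, Finset.mem_product, Finset.mem_range]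
  exact ⟨fun h => h.2, fun h => ⟨by omega, h⟩⟩

/-- The span of the monomials of weight `w`. -/
def monSpan (w : ℤ) : Submodule ℂ (ℍ → ℂ) := Submodule.span ℂ (monFn '' ↑(monIndex w))

theorem mul_monFn_mem {w w' : ℤ} {x : ℕ × ℕ} (hx : x ∈ monIndex w') {F : ℍ → ℂ}
    (hF : F ∈ monSpan w) : F * monFn x ∈ monSpan (w + w') := by
  induction hF using Submodule.span_induction with
  | mem y hy =>
    obtain ⟨y, hy, rfl⟩ := hy
    refine Submodule.subset_span ⟨y + x, ?_, ?_⟩
    · rw [Finset.mem_coe, mem_monIndex] at hy ⊢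
      rw [mem_monIndex] at hx
      simp only [Prod.fst_add, Prod.snd_add, Nat.cast_add]
      omega
    · simp only [monFn, Prod.fst_add, Prod.snd_add, pow_add]; ring
  | zero => rw [zero_mul]; exact zero_mem _
  | add a b _ _ ha hb => rw [add_mul]; exact add_mem ha hb
  | smul c a _ ha => rw [smul_mul_assoc]; exact Submodule.smul_mem _ c ha

theorem mul_discriminant_mem {w : ℤ} {F : ℍ → ℂ} (hF : F ∈ monSpan (w - 12)) :
    ModularForm.discriminant * F ∈ monSpan w := by
  have h3 := mul_monFn_mem (x := ((3 : ℕ), (0 : ℕ))) (w' := 12) (mem_monIndex.mpr (by norm_num)) hF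
  have h2 := mul_monFn_mem (x := ((0 : ℕ), (2 : ℕ))) (w' := 12) (mem_monIndex.mpr (by norm_num)) hF
  rw [sub_add_cancel] at h3 h2
  have e : ModularForm.discriminant * F =
      (1728 : ℂ)⁻¹ • (F * monFn (3, 0)) - (1728 : ℂ)⁻¹ • (F * monFn (0, 2)) := by
    funext τ
    simp only [Pi.mul_apply, Pi.sub_apply, Pi.smul_apply, monFn, Pi.pow_apply, pow_zero,
      smul_eq_mul, mul_one, one_mul, ModularForm.discriminant_eq_E₄_cube_sub_E₆_sq]
    ring
  rw [e]
  exact sub_mem (Submodule.smul_mem _ _ h3) (Submodule.smul_mem _ _ h2)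

/-- A form with vanishing constant term is `Δ` times a form. -/
theorem exists_div_discriminant {w : ℤ} (f : ModularForm 𝒮ℒ w)
    (h0 : (qExpansion 1 f).coeff 0 = 0) :
    ∃ g : ModularForm 𝒮ℒ (w - 12), (f : ℍ → ℂ) = ModularForm.discriminant * ⇑g := by
  obtain ⟨g, hg⟩ := (ModularForm.isCuspForm_iff_coeffZero_eq_zero f).mpr h0
  refine ⟨CuspForm.discriminantEquiv g, funext fun τ => ?_⟩
  rw [Pi.mul_apply, ModularForm.discriminant_mul_discriminantEquiv_apply, ← hg]
  rfl

theorem coe_eq_zero_of_neg {w : ℤ} (hw : w < 0) (f : ModularForm 𝒮ℒ w) : f = 0 :=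
  rank_zero_iff_forall_zero.mp (ModularForm.levelOne_neg_weight_rank_zero hw) f

theorem exists_monIndex {w : ℤ} (hw : 0 ≤ w) (hev : Even w) (h2 : w ≠ 2) :
    ∃ x, x ∈ monIndex w := by
  obtain ⟨k, rfl⟩ := hev
  rcases Int.even_or_odd k with ⟨j, rfl⟩ | ⟨j, rfl⟩
  · exact ⟨(j.toNat, 0), mem_monIndex.mpr (by simp only [Nat.cast_zero]; omega)⟩
  · exact ⟨((j - 1).toNat, 1), mem_monIndex.mpr (by simp only [Nat.cast_one]; omega)⟩

/-- **Level one forms are polynomials in `E₄` and `E₆`.** -/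
theorem coe_mem_monSpan (n : ℕ) : ∀ w : ℤ, w.toNat ≤ n → ∀ f : ModularForm 𝒮ℒ w,
    (f : ℍ → ℂ) ∈ monSpan w := by
  induction n with
  | zero =>
    intro w hw f
    rcases lt_or_ge w 0 with h | h
    · rw [coe_eq_zero_of_neg h f]; exact zero_mem _
    · obtain rfl : w = 0 := by omega
      have hx : ((0 : ℕ), (0 : ℕ)) ∈ monIndex 0 := mem_monIndex.mpr (by norm_num)
      obtain ⟨c, hc⟩ := ModularFormClass.levelOne_weight_zero_const f
      have e : (f : ℍ → ℂ) = c • monFn (0, 0) := by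
        funext τ; simp [monFn, hc]
      rw [e]
      exact Submodule.smul_mem _ _ (Submodule.subset_span ⟨_, hx, rfl⟩)
  | succ n ih =>
    intro w hw f
    rcases le_or_gt w.toNat n with h | h
    · exact ih w h f
    have hrec : ∀ g : ModularForm 𝒮ℒ w, (qExpansion 1 g).coeff 0 = 0 → (g : ℍ → ℂ) ∈ monSpan w :=
      fun g hg => by
        obtain ⟨g', hg'⟩ := exists_div_discriminant g hg
        rw [hg']
        exact mul_discriminant_mem (ih _ (by omega) g')
    rcases Int.even_or_odd w with hev | hodd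
    · by_cases h2 : w = 2
      · subst h2
        rw [rank_zero_iff_forall_zero.mp ModularForm.levelOne_weight_two_rank_zero f]
        exact zero_mem _
      obtain ⟨x, hx⟩ := exists_monIndex (by omega) hev h2
      have hm : IsLevel w (monFn x) := by
        have := isLevel_monFn x
        rwa [mem_monIndex.mp hx] at this
      set M := hm.toForm with hM
      have hM0 : (qExpansion 1 M).coeff 0 = 1 := by
        rw [UpperHalfPlane.qExpansion_coeff_zero one_pos
          (ModularFormClass.analyticAt_cuspFunction_zero M one_pos one_mem_strictPeriods_SL)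
          (SlashInvariantFormClass.periodic_comp_ofComplex M one_mem_strictPeriods_SL)]
        refine Tendsto.limUnder_eq ?_
        show Tendsto (monFn x) atImInfty _
        have h4 := (tendsto_E4.pow x.1).mul (tendsto_E6.pow x.2)
        rwa [one_pow, one_pow, one_mul] at h4
      have hsub := hrec (f - (qExpansion 1 f).coeff 0 • M)
        ((ModularForm.isCuspForm_iff_coeffZero_eq_zero _).mp
          (ModularForm.sub_smul_isCuspForm f M hM0))
      rw [FunLike.coe_sub, FunLike.coe_smul] at hsub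
      have := add_mem hsub (Submodule.smul_mem _ ((qExpansion 1 f).coeff 0)
        (Submodule.subset_span ⟨x, hx, rfl⟩ : monFn x ∈ monSpan w))
      rwa [show (M : ℍ → ℂ) = monFn x from rfl, sub_add_cancel] at this
    · rw [ModularForm.levelOne_odd_weight_eq_zero hodd f]
      exact zero_mem _

theorem IsLevel.mem_monSpan {w : ℤ} {F : ℍ → ℂ} (h : IsLevel w F) : F ∈ monSpan w :=
  coe_mem_monSpan w.toNat w le_rfl h.toForm

/-- A nowhere vanishing form of level one decays no faster than a power of `Δ`. -/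
theorem IsLevel.exists_discriminant_div_bdd {w : ℤ} {F : ℍ → ℂ} (h : IsLevel w F)
    (hne : ∀ τ, F τ ≠ 0) :
    ∃ e : ℕ, IsBoundedAtImInfty fun τ => ModularForm.discriminant τ ^ e / F τ := by
  suffices H : ∀ n : ℕ, ∀ w : ℤ, w.toNat ≤ n → ∀ f : ModularForm 𝒮ℒ w, (∀ τ, f τ ≠ 0) →
      ∃ e : ℕ, IsBoundedAtImInfty fun τ => ModularForm.discriminant τ ^ e / f τ by
    exact H w.toNat w le_rfl h.toForm hne
  intro n
  induction n using Nat.strong_induction_on with
  | _ n ih =>
    intro w hw f hf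
    have hlim : Tendsto (f : ℍ → ℂ) atImInfty (𝓝 ((qExpansion 1 f).coeff 0)) := by
      have han := ModularFormClass.analyticAt_cuspFunction_zero f one_pos one_mem_strictPeriods_SL
      have hper := SlashInvariantFormClass.periodic_comp_ofComplex f one_mem_strictPeriods_SL
      rw [UpperHalfPlane.qExpansion_coeff, iteratedDeriv_zero]
      simp only [Nat.factorial_zero, Nat.cast_one, inv_one, one_mul]
      exact (han.continuousAt.tendsto.comp (qParam_tendsto_atImInfty one_pos)).congr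
        fun τ => eq_cuspFunction τ one_ne_zero hper
    by_cases h0 : (qExpansion 1 f).coeff 0 = 0
    · obtain ⟨g, hg⟩ := exists_div_discriminant f h0
      have hgne : ∀ τ, g τ ≠ 0 := fun τ hz => hf τ (by rw [hg]; simp [hz])
      have hw12 : 12 ≤ w := by
        by_contra hlt
        exact hgne UpperHalfPlane.I (by rw [coe_eq_zero_of_neg (by omega) g]; rfl)
      obtain ⟨e, he⟩ := ih (w - 12).toNat (by omega) (w - 12) le_rfl g hgne
      refine ⟨e + 1, ?_⟩
      have e' : (fun τ => ModularForm.discriminant τ ^ (e + 1) / f τ) =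
          fun τ => ModularForm.discriminant τ ^ e / g τ := funext fun τ => by
        rw [hg, Pi.mul_apply, pow_succ', mul_div_mul_left _ _ (ModularForm.discriminant_ne_zero τ)]
      rw [e']
      exact he
    · refine ⟨0, ?_⟩
      simp only [pow_zero, one_div]
      exact (hlim.inv₀ h0).isBigO_one ℝ

/-! ### Series at period `p` -/

variable {p : ℕ} [NeZero p]

/-- Integral series as complex series. -/
def intSer : LaurentSeries ℤ →+* LaurentSeries ℂ := ModularCurve.coeffMap (Int.castRingHom ℂ)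

/-- Membership in `perMero p` with a given integral series. -/
structure HasSer (p : ℕ) [NeZero p] (F : ℍ → ℂ) (s : LaurentSeries ℤ) : Prop where
  mem : F ∈ perMero p
  ser : qSer p ⟨F, mem⟩ = intSer s

theorem HasSer.mul {F G : ℍ → ℂ} {s t : LaurentSeries ℤ} (hF : HasSer p F s) (hG : HasSer p G t) :
    HasSer p (F * G) (s * t) :=
  ⟨mul_mem hF.mem hG.mem, by
    rw [map_mul, ← hF.ser, ← hG.ser, ← map_mul]; rfl⟩

theorem HasSer.pow {F : ℍ → ℂ} {s : LaurentSeries ℤ} (hF : HasSer p F s) (k : ℕ) :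
    HasSer p (F ^ k) (s ^ k) :=
  ⟨pow_mem hF.mem k, by rw [map_pow, ← hF.ser, ← map_pow]; rfl⟩

/-- A function with an integral Taylor series. -/
theorem HasSer.of_hasSum {F : ℍ → ℂ} {a : ℕ → ℤ} (hF : MDiff F)
    (hs : ∀ τ, HasSum (fun n => (a n : ℂ) • qp p τ ^ n) (F τ)) :
    HasSer p F (HahnSeries.ofPowerSeries ℤ ℤ (PowerSeries.mk a)) := by
  have hper : IsPer p F := fun τ => by
    refine (hs (((p : ℝ) +ᵥ τ : ℍ))).unique ?_
    simp only [qp_vadd]
    exact hs τ
  have hb : IsBoundedAtImInfty (F * qp p ^ 0) := by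
    rw [pow_zero, mul_one]; exact isBoundedAtImInfty_of_hasSum_qExpansion (hpos p) hs
  refine ⟨⟨hF, hper, 0, hb⟩, ?_⟩
  rw [qSer_eq _ (m := 0) hb, qSerAux]
  simp only [Nat.cast_zero, neg_zero, HahnSeries.single_zero_one, one_mul, pow_zero, mul_one]
  rw [intSer, ← map_mk_coeff a]
  congr 1
  ext n
  rw [qExpansion_coeff_eq_of_hasSum hF hper hs, PowerSeries.coeff_map, PowerSeries.coeff_mk]
  rfl
where
  map_mk_coeff (a : ℕ → ℤ) : HahnSeries.ofPowerSeries ℤ ℂ
      ((PowerSeries.mk a).map (Int.castRingHom ℂ)) =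
      ModularCurve.coeffMap (Int.castRingHom ℂ)
        (HahnSeries.ofPowerSeries ℤ ℤ (PowerSeries.mk a)) := by
    rw [X0Analytic.coeffMap_ofPowerSeries]

/-- From period `1` to period `p`. -/
theorem HasSer.expand {F : ℍ → ℂ} {s : LaurentSeries ℤ} (hF : HasSer 1 F s) :
    HasSer p F (ModularCurve.qExpand ℤ p s) := by
  have hq : ∀ τ : ℍ, qp 1 (id τ) = 1 * qp p τ ^ p := fun τ => by
    rw [one_mul, id, qp, qp, Function.Periodic.qParam, Function.Periodic.qParam,
      ← Complex.exp_nat_mul]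
    congr 1
    have := natCast_ne (p := p)
    push_cast
    field_simp
  obtain ⟨hmem, hser⟩ := qSer_subst (h := 1) (h' := p) (M := p) ⟨F, hF.mem⟩ id mdifferentiable_id 1
    one_ne_zero hq
  refine ⟨hmem, hser.trans ?_⟩
  rw [hF.ser, intSer, ModularCurve.coeffMap_qExpand]
  congr 1
  ext n
  simp

theorem hasSer_E4 : HasSer 1 (ModularForm.E₄ : ℍ → ℂ)
    (HahnSeries.ofPowerSeries ℤ ℤ ModularCurve.eisenstein4) := by
  have hb : IsBoundedAtImInfty ((ModularForm.E₄ : ℍ → ℂ) * qp 1 ^ 0) := by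
    rw [pow_zero, mul_one]; exact ModularFormClass.bdd_at_infty ModularForm.E₄
  refine ⟨E4_mem, ?_⟩
  rw [qSer_eq _ (m := 0) hb, qSerAux, intSer, X0Analytic.coeffMap_ofPowerSeries]
  simp only [Nat.cast_zero, neg_zero, HahnSeries.single_zero_one, one_mul, pow_zero, mul_one,
    Nat.cast_one]
  rw [qExpansion_E4]

theorem hasSer_E6 : HasSer 1 (ModularForm.E₆ : ℍ → ℂ)
    (HahnSeries.ofPowerSeries ℤ ℤ Mazur.Moduli.eisenstein6) :=
  ⟨Mazur.Moduli.E6_mem, by
    rw [Mazur.Moduli.qSer_E6, intSer, X0Analytic.coeffMap_ofPowerSeries]⟩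

/-- The series of `1 / Δ`. -/
def discInvSer : LaurentSeries ℤ :=
  HahnSeries.single (-1) 1 * HahnSeries.ofPowerSeries ℤ ℤ ModularCurve.dedekindEtaUnitInv

theorem hasSer_discInv : HasSer 1 (fun τ : ℍ => (ModularForm.discriminant τ)⁻¹) discInvSer := by
  have hm : MDiff (fun τ : ℍ => (ModularForm.discriminant τ)⁻¹) :=
    UpperHalfPlane.mdifferentiable_iff.mpr
      ((UpperHalfPlane.mdifferentiable_iff.mp CuspForm.discriminant.holo').inv
        fun _ _ => ModularForm.discriminant_ne_zero _)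
  have hmem : (fun τ : ℍ => (ModularForm.discriminant τ)⁻¹) ∈ perMero 1 := by
    refine ⟨hm, fun τ => ?_, 1, ?_⟩
    · exact congrArg (·⁻¹) (discriminant_mem.2.1 τ)
    · rw [pow_one]
      have e : ((fun τ : ℍ => (ModularForm.discriminant τ)⁻¹) * qp 1) =
          fun τ => qp 1 τ / ModularForm.discriminant τ := by
        funext τ; simp [div_eq_inv_mul]
      rw [e]
      exact Mazur.Moduli.qp_div_discriminant_isBounded
  refine ⟨hmem, ?_⟩
  have h1 : (⟨_, hmem⟩ : ↥(perMero 1)) * ⟨ModularForm.discriminant, discriminant_mem⟩ = 1 :=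
    Subtype.ext (funext fun τ => inv_mul_cancel₀ (ModularForm.discriminant_ne_zero τ))
  have h2 := congrArg (qSer 1) h1
  rw [map_mul, map_one, qSer_discriminant] at h2
  refine (mul_right_cancel₀ (right_ne_zero_of_mul_eq_one h2) (h2.trans ?_))
  rw [discInvSer, map_mul, intSer, X0Analytic.coeffMap_ofPowerSeries, ModularCurve.coeffMap_single,
    mul_mul_mul_comm, HahnSeries.single_mul_single, ← map_mul (HahnSeries.ofPowerSeries ℤ ℂ),
    ← map_mul (PowerSeries.map (Int.castRingHom ℂ)), mul_comm ModularCurve.dedekindEtaUnitInv,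
    ModularCurve.dedekindEtaUnit_mul_inv, map_one (PowerSeries.map (Int.castRingHom ℂ)),
    map_one (HahnSeries.ofPowerSeries ℤ ℂ), mul_one, map_one (Int.castRingHom ℂ), one_mul]
  norm_num

end Fermat.Agent.Row48.Coefficients
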