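import Mathlib.Algebra.Polynomial.Roots
import Mathlib.LinearAlgebra.Lagrange
import Fermat.Agent.Row48.Coefficients.LevelOne

/-!
# Every weight one form of level `p` in terms of `℘` and `℘'` at `τ / p`

Lagrange interpolation over the orbit of `℘(τ / p)`.
-/

set_option autoImplicit false

noncomputable section

open Filter Topology UpperHalfPlane ModularForm Polynomial
open scoped Real Manifold MatrixGroups ModularForm

namespace Fermat.Agent.Row48.Coefficients

variable (p : ℕ) [NeZero p]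

/-- A division vector up to sign. -/
def cls (v : ZMod p × ZMod p) : Finset (ZMod p × ZMod p) := {v, -v}

/-- The orbit of `τ / p` up to sign. -/
def Orb : Type :=
  {x : Finset (ZMod p × ZMod p) // ∃ γ : SL(2, ℤ), x = cls p (rowAct (baseVec p) γ)}

instance : Fintype (Orb p) :=
  @Fintype.ofFinite _ (inferInstanceAs (Finite {x : Finset (ZMod p × ZMod p) //
    ∃ γ : SL(2, ℤ), x = cls p (rowAct (baseVec p) γ)}))

instance : DecidableEq (Orb p) := Classical.decEq _

variable {p}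

omit [NeZero p] in
theorem cls_eq_iff {v w : ZMod p × ZMod p} : cls p v = cls p w ↔ v = w ∨ v = -w := by
  constructor
  · intro h
    have : v ∈ cls p w := h ▸ Finset.mem_insert_self v _
    simpa [cls] using this
  · rintro (rfl | rfl)
    · rfl
    · rw [cls, cls, neg_neg, Finset.pair_comm]

/-- The chosen matrix of a member of the orbit. -/
def Orb.sec (x : Orb p) : SL(2, ℤ) := x.2.choose

/-- The vector of a member of the orbit. -/
def Orb.vec (x : Orb p) : ZMod p × ZMod p := rowAct (baseVec p) x.sec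

/-- The member of a vector of the orbit. -/
def Orb.mk' (γ : SL(2, ℤ)) : Orb p := ⟨cls p (rowAct (baseVec p) γ), γ, rfl⟩

omit [NeZero p] in
theorem Orb.cls_vec (x : Orb p) : cls p x.vec = x.1 := x.2.choose_spec.symm

omit [NeZero p] in
theorem Orb.vec_mk' (γ : SL(2, ℤ)) :
    (Orb.mk' γ : Orb p).vec = rowAct (baseVec p) γ ∨
      (Orb.mk' γ : Orb p).vec = -rowAct (baseVec p) γ :=
  cls_eq_iff.mp (Orb.cls_vec _)

/-- The right action. -/
def Orb.act (x : Orb p) (γ : SL(2, ℤ)) : Orb p := Orb.mk' (x.sec * γ)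

omit [NeZero p] in
theorem Orb.vec_act (x : Orb p) (γ : SL(2, ℤ)) :
    (x.act γ).vec = rowAct x.vec γ ∨ (x.act γ).vec = -rowAct x.vec γ := by
  have h := Orb.vec_mk' (p := p) (x.sec * γ)
  rwa [rowAct_mul] at h

omit [NeZero p] in
theorem Orb.act_injective (γ : SL(2, ℤ)) : Function.Injective fun x : Orb p => x.act γ := by
  intro x y h
  have h' : cls p (rowAct x.vec γ) = cls p (rowAct y.vec γ) := by
    have := congrArg Subtype.val h
    simp only [Orb.act, Orb.mk', rowAct_mul] at this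
    exact this
  refine Subtype.ext ?_
  rw [← x.cls_vec, ← y.cls_vec, cls_eq_iff]
  have back : ∀ v : ZMod p × ZMod p, rowAct (rowAct v γ) γ⁻¹ = v := fun v => by
    rw [← rowAct_mul, mul_inv_cancel, rowAct_one]
  rcases cls_eq_iff.mp h' with e | e
  · exact Or.inl (by rw [← back x.vec, e, back])
  · exact Or.inr (by rw [← back x.vec, e, rowAct_neg, back])

omit [NeZero p] in
theorem Orb.vec_ne (hp : 2 < p) (x : Orb p) : x.vec ≠ 0 ∧ x.vec + x.vec ≠ 0 := by
  have back : rowAct x.vec x.sec⁻¹ = baseVec p := by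
    rw [Orb.vec, ← rowAct_mul, mul_inv_cancel, rowAct_one]
  have h := baseVec_ne (p := p) hp
  refine ⟨fun e => h.1 ?_, fun e => h.2 ?_⟩
  · rw [← back, e]; simp [rowAct]
  · rw [← back]
    have e1 : x.vec.1 + x.vec.1 = 0 := congrArg Prod.fst e
    have e2 : x.vec.2 + x.vec.2 = 0 := congrArg Prod.snd e
    simp only [rowAct, Prod.mk_add_mk, Prod.mk_eq_zero]
    constructor
    · rw [show x.vec.1 * ((x.sec⁻¹ : SL(2, ℤ)) 0 0 : ℤ) + x.vec.2 * ((x.sec⁻¹ : SL(2, ℤ)) 1 0 : ℤ) +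
        (x.vec.1 * ((x.sec⁻¹ : SL(2, ℤ)) 0 0 : ℤ) + x.vec.2 * ((x.sec⁻¹ : SL(2, ℤ)) 1 0 : ℤ)) =
        (x.vec.1 + x.vec.1) * ((x.sec⁻¹ : SL(2, ℤ)) 0 0 : ℤ) +
        (x.vec.2 + x.vec.2) * ((x.sec⁻¹ : SL(2, ℤ)) 1 0 : ℤ) by ring, e1, e2, zero_mul, zero_mul,
        add_zero]
    · rw [show x.vec.1 * ((x.sec⁻¹ : SL(2, ℤ)) 0 1 : ℤ) + x.vec.2 * ((x.sec⁻¹ : SL(2, ℤ)) 1 1 : ℤ) +
        (x.vec.1 * ((x.sec⁻¹ : SL(2, ℤ)) 0 1 : ℤ) + x.vec.2 * ((x.sec⁻¹ : SL(2, ℤ)) 1 1 : ℤ)) =
        (x.vec.1 + x.vec.1) * ((x.sec⁻¹ : SL(2, ℤ)) 0 1 : ℤ) +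
        (x.vec.2 + x.vec.2) * ((x.sec⁻¹ : SL(2, ℤ)) 1 1 : ℤ) by ring, e1, e2, zero_mul, zero_mul,
        add_zero]

/-- `℘` at a member. -/
def Orb.pVal (x : Orb p) : ℍ → ℂ := wpVal x.vec

/-- `℘' ^ 2` at a member. -/
def Orb.wSq (x : Orb p) : ℍ → ℂ := fun τ => wdVal x.vec τ ^ 2

/-- A family on the orbit of weight `k`. -/
def Trans (k : ℤ) (F : Orb p → ℍ → ℂ) : Prop :=
  ∀ (γ : SL(2, ℤ)) (x : Orb p) (τ : ℍ),
    F x (γ • τ) = UpperHalfPlane.denom (γ : GL (Fin 2) ℝ) τ ^ k * F (x.act γ) τ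

omit [NeZero p] in
theorem apply_smul_of_slash {k : ℤ} {F G : ℍ → ℂ} {γ : SL(2, ℤ)} (h : F ∣[k] γ = G) (τ : ℍ) :
    F (γ • τ) = UpperHalfPlane.denom (γ : GL (Fin 2) ℝ) τ ^ k * G τ := by
  rw [← h, ModularForm.SL_slash_apply, mul_comm (F (γ • τ)), ← mul_assoc, ← zpow_add₀
    (UpperHalfPlane.denom_ne_zero _ τ), add_neg_cancel, zpow_zero, one_mul]

theorem trans_pVal : Trans 2 (Orb.pVal (p := p)) := fun γ x τ => by
  rw [Orb.pVal, apply_smul_of_slash (wpVal_slash x.vec γ) τ]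
  congr 1
  rcases x.vec_act γ with e | e
  · simp only [Orb.pVal, e]
  · simp only [Orb.pVal, e, (wpVal_neg _ τ).1]

theorem trans_wSq : Trans 6 (Orb.wSq (p := p)) := fun γ x τ => by
  simp only [Orb.wSq, apply_smul_of_slash (wdVal_slash x.vec γ) τ]
  have h6 : ∀ u : ℂ, (u ^ (3 : ℤ)) ^ 2 = u ^ (6 : ℤ) := fun u => by
    rw [zpow_ofNat, zpow_ofNat, ← pow_mul]
  rw [mul_pow, h6]
  rcases x.vec_act γ with e | e
  · rw [e]
  · rw [e, (wpVal_neg _ τ).2, neg_sq]

theorem pVal_ne (hp : 2 < p) {x y : Orb p} (h : x ≠ y) (τ : ℍ) : x.pVal τ - y.pVal τ ≠ 0 := by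
  rw [sub_ne_zero]
  intro he
  refine h (Subtype.ext ?_)
  rw [← x.cls_vec, ← y.cls_vec, cls_eq_iff]
  exact eq_or_neg_of_wpVal_eq (x.vec_ne hp).1 (y.vec_ne hp).1 he

theorem wSq_ne (hp : 2 < p) (x : Orb p) (τ : ℍ) : x.wSq τ ≠ 0 :=
  pow_ne_zero 2 (wdVal_ne_zero (x.vec_ne hp).2 τ)

theorem mdiff_pVal (hp : 2 < p) (x : Orb p) : MDiff x.pVal := wpVal_mdiff (x.vec_ne hp).1

theorem bdd_pVal (hp : 2 < p) (x : Orb p) : IsBoundedAtImInfty x.pVal := wpVal_bdd (x.vec_ne hp).1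

theorem mdiff_wSq (x : Orb p) : MDiff x.wSq := by
  have h := (wdVal_mdiff x.vec).mul (wdVal_mdiff x.vec)
  convert! h using 1
  funext τ; simp [Orb.wSq, sq]

theorem bdd_wSq (x : Orb p) : IsBoundedAtImInfty x.wSq := by
  have h := Filter.BoundedAtFilter.mul (wdVal_bdd x.vec) (wdVal_bdd x.vec)
  convert! h using 1
  funext τ; simp [Orb.wSq, sq]

omit [NeZero p] in
/-- Products of nice functions are nice. -/
theorem prod_nice {ι : Type*} (s : Finset ι) (F : ι → ℍ → ℂ) (h : ∀ i ∈ s, MDiff (F i))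
    (hb : ∀ i ∈ s, IsBoundedAtImInfty (F i)) :
    MDiff (∏ i ∈ s, F i) ∧ IsBoundedAtImInfty (∏ i ∈ s, F i) := by
  induction s using Finset.cons_induction with
  | empty => exact ⟨mdifferentiable_const, Filter.const_boundedAtFilter _ (1 : ℂ)⟩
  | cons a s ha ih =>
    rw [Finset.prod_cons]
    obtain ⟨h1, h2⟩ := ih (fun i hi => h i (Finset.mem_cons_of_mem hi))
      fun i hi => hb i (Finset.mem_cons_of_mem hi)
    exact ⟨(h a (Finset.mem_cons_self a s)).mul h1,
      Filter.BoundedAtFilter.mul (hb a (Finset.mem_cons_self a s)) h2⟩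

omit [NeZero p] in
/-- Sums of nice functions are nice. -/
theorem sum_nice {ι : Type*} (s : Finset ι) (F : ι → ℍ → ℂ) (h : ∀ i ∈ s, MDiff (F i))
    (hb : ∀ i ∈ s, IsBoundedAtImInfty (F i)) :
    MDiff (∑ i ∈ s, F i) ∧ IsBoundedAtImInfty (∑ i ∈ s, F i) := by
  induction s using Finset.cons_induction with
  | empty => exact ⟨mdifferentiable_const, Filter.const_boundedAtFilter _ (0 : ℂ)⟩
  | cons a s ha ih =>
    rw [Finset.sum_cons]
    obtain ⟨h1, h2⟩ := ih (fun i hi => h i (Finset.mem_cons_of_mem hi))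
      fun i hi => hb i (Finset.mem_cons_of_mem hi)
    exact ⟨(h a (Finset.mem_cons_self a s)).add h1,
      Filter.BoundedAtFilter.add (hb a (Finset.mem_cons_self a s)) h2⟩

/-- The difference product of a member. -/
def Orb.dFac (x : Orb p) : ℍ → ℂ := ∏ y ∈ Finset.univ.erase x, (x.pVal - y.pVal)

theorem dFac_apply (x : Orb p) (τ : ℍ) :
    x.dFac τ = ∏ y ∈ Finset.univ.erase x, (x.pVal τ - y.pVal τ) := by
  simp [Orb.dFac, Finset.prod_apply]

theorem erase_act (x : Orb p) (γ : SL(2, ℤ)) :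
    (Finset.univ.erase x).image (fun y => y.act γ) = Finset.univ.erase (x.act γ) := by
  rw [Finset.image_erase (Orb.act_injective γ)]
  congr 1
  rw [Finset.eq_univ_iff_forall]
  intro z
  obtain ⟨y, hy⟩ := (Finite.injective_iff_surjective.mp (Orb.act_injective γ)) z
  exact Finset.mem_image.mpr ⟨y, Finset.mem_univ y, hy⟩

theorem trans_dFac :
    Trans (2 * ((Fintype.card (Orb p) : ℤ) - 1)) (Orb.dFac (p := p)) := fun γ x τ => by
  rw [dFac_apply, dFac_apply, ← erase_act x γ, Finset.prod_image (Orb.act_injective γ).injOn]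
  have h : ∀ y : Orb p, x.pVal (γ • τ) - y.pVal (γ • τ) =
      UpperHalfPlane.denom (γ : GL (Fin 2) ℝ) τ ^ (2 : ℤ) *
        ((x.act γ).pVal τ - (y.act γ).pVal τ) := fun y => by
    rw [trans_pVal γ x τ, trans_pVal γ y τ, mul_sub]
  rw [Finset.prod_congr rfl fun y _ => h y, Finset.prod_mul_distrib, Finset.prod_const,
    Finset.card_erase_of_mem (Finset.mem_univ x), Finset.card_univ]
  congr 1
  rw [← zpow_natCast (UpperHalfPlane.denom (γ : GL (Fin 2) ℝ) τ ^ (2 : ℤ)), ← zpow_mul]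
  congr 1
  have : 1 ≤ Fintype.card (Orb p) := Fintype.card_pos_iff.mpr ⟨x⟩
  rw [Nat.cast_sub this, Nat.cast_one]

omit [NeZero p] in
theorem isLevel_prod [NeZero p] {k : ℤ} {F : Orb p → ℍ → ℂ} (hF : Trans k F)
    (h : ∀ x, MDiff (F x)) (hb : ∀ x, IsBoundedAtImInfty (F x)) :
    IsLevel ((Fintype.card (Orb p) : ℤ) * k) (∏ x, F x) := by
  obtain ⟨h1, h2⟩ := prod_nice Finset.univ F (fun i _ => h i) fun i _ => hb i
  refine ⟨h1, fun γ => funext fun τ => ?_, h2⟩
  have hd := UpperHalfPlane.denom_ne_zero (γ : GL (Fin 2) ℝ) τ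
  simp only [ModularForm.SL_slash_apply, Finset.prod_apply, hF γ _ τ, Finset.prod_mul_distrib,
    Finset.prod_const, Finset.card_univ]
  rw [Fintype.prod_bijective (fun x : Orb p => x.act γ)
    ⟨Orb.act_injective γ, Finite.injective_iff_surjective.mp (Orb.act_injective γ)⟩
    (fun x => F (x.act γ) τ) (fun x => F x τ) fun _ => rfl]
  rw [mul_right_comm, ← zpow_natCast, ← zpow_mul, ← zpow_add₀ hd, mul_comm k, add_neg_cancel,
    zpow_zero, one_mul]

variable (p) in
/-- The indices of the spanning functions: a power of `℘` and a monomial. -/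
def spanIdx (m : ℕ) : Finset (ℕ × ℕ × ℕ) :=
  (Finset.range (Fintype.card (Orb p))).biUnion fun i =>
    (monIndex (12 * m - 2 - 2 * i)).image fun x => (i, x)

theorem mem_spanIdx {m : ℕ} {l : ℕ × ℕ × ℕ} (h : l ∈ spanIdx p m) :
    4 * (l.2.1 : ℤ) + 6 * l.2.2 = 12 * m - 2 - 2 * l.1 := by
  simp only [spanIdx, Finset.mem_biUnion, Finset.mem_image] at h
  obtain ⟨i, -, x, hx, rfl⟩ := h
  exact mem_monIndex.mp hx

/-- A combination of the spanning functions, at the vector `v`. -/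
def combo (m : ℕ) (c : ℕ × ℕ × ℕ → ℂ) (v : ZMod p × ZMod p) : ℍ → ℂ :=
  wdVal v * (fun τ => (ModularForm.discriminant τ)⁻¹) ^ m *
    ∑ l ∈ spanIdx p m, c l • (((12 : ℂ) • wpVal v) ^ l.1 * monFn l.2)

theorem combo_slash (m : ℕ) (c : ℕ × ℕ × ℕ → ℂ) (v : ZMod p × ZMod p) (γ : SL(2, ℤ)) :
    combo m c v ∣[(1 : ℤ)] γ = combo m c (rowAct v γ) := by
  funext τ
  have hd := UpperHalfPlane.denom_ne_zero (γ : GL (Fin 2) ℝ) τ
  simp only [ModularForm.SL_slash_apply, combo, Pi.mul_apply, Pi.pow_apply, Finset.sum_apply,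
    Pi.smul_apply, smul_eq_mul, Finset.mul_sum, Finset.sum_mul]
  refine Finset.sum_congr rfl fun l hl => ?_
  rw [apply_smul_of_slash (wdVal_slash v γ) τ, apply_smul_of_slash (wpVal_slash v γ) τ,
    apply_smul_of_slash ((isLevel_monFn l.2).slash γ) τ,
    X0Analytic.discriminant_smul, mem_spanIdx hl]
  set u := UpperHalfPlane.denom (γ : GL (Fin 2) ℝ) τ
  have key : u ^ (3 : ℤ) * ((u ^ (12 : ℤ))⁻¹) ^ m * (u ^ (2 : ℤ)) ^ l.1 *
      u ^ (12 * (m : ℤ) - 2 - 2 * l.1) * u ^ (-1 : ℤ) = 1 := by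
    simp only [← zpow_neg, ← zpow_natCast, ← zpow_mul, ← zpow_add₀ hd]
    rw [show (3 : ℤ) + -12 * (m : ℤ) + 2 * (l.1 : ℤ) + (12 * (m : ℤ) - 2 - 2 * l.1) + -1 = 0
      by ring,
      zpow_zero]
  calc _ = (u ^ (3 : ℤ) * ((u ^ (12 : ℤ))⁻¹) ^ m * (u ^ (2 : ℤ)) ^ l.1 *
        u ^ (12 * (m : ℤ) - 2 - 2 * l.1) * u ^ (-1 : ℤ)) *
      (wdVal (rowAct v γ) τ * ((ModularForm.discriminant τ)⁻¹) ^ m *
        (c l * ((12 * wpVal (rowAct v γ) τ) ^ l.1 * monFn l.2 τ))) := by
        simp only [mul_inv, mul_pow]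
        ring
    _ = _ := by rw [key, one_mul]

theorem combo_mdiff (hp : 2 < p) (m : ℕ) (c : ℕ × ℕ × ℕ → ℂ) :
    MDiff (combo m c (baseVec p)) := by
  have hinv : MDiff ((fun τ : ℍ => (ModularForm.discriminant τ)⁻¹) ^ m) :=
    (X0Analytic.mem_holFun).mp (pow_mem (X0Analytic.mem_holFun.mpr hasSer_discInv.mem.1) m)
  have hP : MDiff ((12 : ℂ) • wpVal (baseVec p)) :=
    (wpVal_mdiff (baseVec_ne hp).1).const_smul 12
  refine ((wdVal_mdiff _).mul hinv).mul
    (MDifferentiable.sum fun l _ => MDifferentiable.const_smul _ ?_)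
  exact ((X0Analytic.mem_holFun).mp (pow_mem (X0Analytic.mem_holFun.mpr hP) l.1)).mul
    (isLevel_monFn l.2).holo

/-- What is needed of a weight one form of level `p`. -/
structure IsWeightOne (g : ℍ → ℂ) : Prop where
  holo : MDiff g
  slash : ∀ γ : SL(2, ℤ), rowAct (baseVec p) γ = baseVec p → g ∣[(1 : ℤ)] γ = g
  bdd : ∀ γ : SL(2, ℤ), IsBoundedAtImInfty (g ∣[(1 : ℤ)] γ)

/-- **The spanning theorem.** -/
theorem exists_spanning (hp : 2 < p) :
    ∃ m : ℕ, ∀ g : ℍ → ℂ, IsWeightOne (p := p) g → ∃ c, g = combo m c (baseVec p) := by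
  classical
  have hWall := isLevel_prod (trans_wSq (p := p)) mdiff_wSq bdd_wSq
  obtain ⟨eW, heW⟩ := hWall.exists_discriminant_div_bdd fun τ => by
    rw [Finset.prod_apply]; exact Finset.prod_ne_zero_iff.mpr fun x _ => wSq_ne hp x τ
  have hdnice : ∀ x : Orb p, MDiff x.dFac ∧ IsBoundedAtImInfty x.dFac := fun x =>
    prod_nice _ _ (fun y _ => (mdiff_pVal hp x).sub (mdiff_pVal hp y)) fun y _ => by
      rw [sub_eq_add_neg]
      exact Filter.BoundedAtFilter.add (bdd_pVal hp x) (Filter.BoundedAtFilter.neg (bdd_pVal hp y))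
  have hdne : ∀ (x : Orb p) τ, x.dFac τ ≠ 0 := fun x τ => by
    rw [dFac_apply]
    exact Finset.prod_ne_zero_iff.mpr fun y hy => pVal_ne hp (Finset.ne_of_mem_erase hy).symm τ
  have hDisc := isLevel_prod trans_dFac (fun x => (hdnice x).1) fun x => (hdnice x).2
  obtain ⟨eD, heD⟩ := hDisc.exists_discriminant_div_bdd fun τ => by
    rw [Finset.prod_apply]; exact Finset.prod_ne_zero_iff.mpr fun x _ => hdne x τ
  refine ⟨eW + eD, fun g hg => ?_⟩
  set m := eW + eD
  set n := Fintype.card (Orb p)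
  -- the translates of `g · ℘'`
  let R : Orb p → ℍ → ℂ := fun x => (g ∣[(1 : ℤ)] x.sec) * wdVal x.vec
  have hgneg : g ∣[(1 : ℤ)] (-1 : SL(2, ℤ)) = -g := by
    funext τ
    rw [ModularForm.SL_slash_apply, ModularGroup.SL_neg_smul, one_smul]
    simp [UpperHalfPlane.denom]
  have hR : Trans 4 R := fun γ x τ => by
    have hd := UpperHalfPlane.denom_ne_zero (γ : GL (Fin 2) ℝ) τ
    simp only [R, Pi.mul_apply]
    rw [apply_smul_of_slash (k := 1) (F := g ∣[(1 : ℤ)] x.sec) (γ := γ) rfl τ,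
      apply_smul_of_slash (wdVal_slash x.vec γ) τ,
      ← SlashAction.slash_mul, mul_mul_mul_comm, ← zpow_add₀ hd, show (1 : ℤ) + 3 = 4 from rfl]
    congr 1
    have hback : ∀ δ : SL(2, ℤ), rowAct (baseVec p) δ = rowAct (baseVec p) (x.act γ).sec →
        g ∣[(1 : ℤ)] δ = g ∣[(1 : ℤ)] (x.act γ).sec := fun δ hδ => by
      have h1 := hg.slash (δ * (x.act γ).sec⁻¹) (by
        rw [rowAct_mul, hδ, ← rowAct_mul, mul_inv_cancel, rowAct_one])
      conv_rhs => rw [← h1, ← SlashAction.slash_mul, inv_mul_cancel_right]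
    rcases x.vec_act γ with e | e
    · rw [hback (x.sec * γ) (by rw [rowAct_mul]; exact e.symm), e]
    · have e' : rowAct (baseVec p) (-1 * (x.sec * γ)) = rowAct (baseVec p) (x.act γ).sec := by
        rw [rowAct_mul, rowAct_mul,
          show rowAct (baseVec p) (-1) = -baseVec p by simp [rowAct, baseVec],
          rowAct_neg, rowAct_neg]
        exact e.symm
      have h1 := hback _ e'
      rw [SlashAction.slash_mul, hgneg, SlashAction.neg_slash] at h1
      rw [← h1, e, (wpVal_neg _ τ).2, Pi.neg_apply]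
      ring
  let G : Orb p → ℍ → ℂ := fun x τ => R x τ * ModularForm.discriminant τ ^ m / x.wSq τ
  set w : ℤ := 12 * m - 2
  have hG : Trans w G := fun γ x τ => by
    have hd := UpperHalfPlane.denom_ne_zero (γ : GL (Fin 2) ℝ) τ
    have hw' := wSq_ne hp (x.act γ) τ
    simp only [G, hR γ x τ, X0Analytic.discriminant_smul, trans_wSq γ x τ]
    rw [show UpperHalfPlane.denom (γ : GL (Fin 2) ℝ) τ ^ w =
      UpperHalfPlane.denom (γ : GL (Fin 2) ℝ) τ ^ (4 : ℤ) *
        (UpperHalfPlane.denom (γ : GL (Fin 2) ℝ) τ ^ (12 : ℤ)) ^ m /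
          UpperHalfPlane.denom (γ : GL (Fin 2) ℝ) τ ^ (6 : ℤ) by
      rw [← zpow_natCast, ← zpow_mul, ← zpow_add₀ hd, ← zpow_sub₀ hd]; congr 1; ring]
    field_simp
    ring
  let Q : ℍ → ℂ[X] := fun τ =>
    ∑ x, C (G x τ / x.dFac τ) * ∏ y ∈ Finset.univ.erase x, (X - C (y.pVal τ))
  have hQdeg : ∀ τ, (Q τ).degree < n := fun τ => by
    refine lt_of_le_of_lt (Polynomial.degree_sum_le _ _) ((Finset.sup_lt_iff
      (WithBot.bot_lt_coe n)).mpr fun x _ => ?_)
    refine lt_of_le_of_lt (Polynomial.degree_mul_le _ _) ?_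
    refine lt_of_le_of_lt (add_le_add Polynomial.degree_C_le le_rfl) ?_
    rw [zero_add, Polynomial.degree_prod]
    simp only [Polynomial.degree_X_sub_C, Finset.sum_const, Finset.card_erase_of_mem
      (Finset.mem_univ x), Finset.card_univ, nsmul_one]
    exact Nat.cast_lt.mpr (Nat.sub_lt (Fintype.card_pos_iff.mpr ⟨x⟩) one_pos)
  have hQeval : ∀ x τ, (Q τ).eval (x.pVal τ) = G x τ := fun x τ => by
    simp only [Q, eval_finsetSum, eval_mul, eval_C, eval_prod, eval_sub, eval_X]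
    rw [Finset.sum_eq_single x, ← dFac_apply, div_mul_cancel₀ _ (hdne x τ)]
    · intro y _ hy
      rw [Finset.prod_eq_zero (Finset.mem_erase.mpr ⟨hy.symm, Finset.mem_univ x⟩) (sub_self _),
        mul_zero]
    · simp
  have hQsmul : ∀ (γ : SL(2, ℤ)) τ i, (Q (γ • τ)).coeff i =
      UpperHalfPlane.denom (γ : GL (Fin 2) ℝ) τ ^ (w - 2 * i) * (Q τ).coeff i := by
    intro γ τ i
    set u := UpperHalfPlane.denom (γ : GL (Fin 2) ℝ) τ
    have hu : u ≠ 0 := UpperHalfPlane.denom_ne_zero _ τ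
    let S : ℂ[X] := C (u ^ w) * (Q τ).comp (C ((u ^ (2 : ℤ))⁻¹) * X)
    have heq : Q (γ • τ) = S := by
      refine Polynomial.eq_of_degrees_lt_of_eval_index_eq (s := Finset.univ)
        (v := fun x : Orb p => x.pVal (γ • τ)) ?_ (by simpa using hQdeg (γ • τ)) ?_ fun x _ => ?_
      · intro x _ y _ h
        by_contra hne
        exact pVal_ne hp hne (γ • τ) (sub_eq_zero.mpr h)
      · rw [Finset.card_univ]
        refine lt_of_le_of_lt ((Polynomial.degree_mul_le _ _).trans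
          (add_le_add Polynomial.degree_C_le le_rfl)) ?_
        rw [zero_add]
        refine lt_of_le_of_lt ?_ (hQdeg τ)
        rw [Polynomial.degree_le_iff_coeff_zero]
        intro j hj
        rw [Polynomial.comp_C_mul_X_coeff, Polynomial.coeff_eq_zero_of_degree_lt hj, zero_mul]
      · simp only [S, eval_mul, eval_C, eval_comp, eval_X]
        rw [hQeval, hG γ x τ, trans_pVal γ x τ, inv_mul_cancel_left₀ (zpow_ne_zero _ hu), hQeval]
    rw [heq, Polynomial.coeff_C_mul, Polynomial.comp_C_mul_X_coeff, inv_pow, ← zpow_natCast,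
      ← zpow_mul, ← zpow_neg, mul_comm ((Q τ).coeff i), ← mul_assoc, ← zpow_add₀ hu]
    congr 1
  -- the coefficients are level one forms
  have hW0 : ∀ τ, (∏ x : Orb p, x.wSq) τ ≠ 0 := fun τ => by
    rw [Finset.prod_apply]; exact Finset.prod_ne_zero_iff.mpr fun y _ => wSq_ne hp y τ
  have hD0 : ∀ τ, (∏ x : Orb p, x.dFac) τ ≠ 0 := fun τ => by
    rw [Finset.prod_apply]; exact Finset.prod_ne_zero_iff.mpr fun y _ => hdne y τ
  have hΔ := UpperHalfPlane.mdifferentiable_iff.mp CuspForm.discriminant.holo'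
  have hinvW : MDiff (fun τ => ModularForm.discriminant τ ^ eW / (∏ x : Orb p, x.wSq) τ) :=
    UpperHalfPlane.mdifferentiable_iff.mpr ((hΔ.pow eW).div
      (UpperHalfPlane.mdifferentiable_iff.mp hWall.holo) fun _ _ => hW0 _)
  have hinvD : MDiff (fun τ => ModularForm.discriminant τ ^ eD / (∏ x : Orb p, x.dFac) τ) :=
    UpperHalfPlane.mdifferentiable_iff.mpr ((hΔ.pow eD).div
      (UpperHalfPlane.mdifferentiable_iff.mp hDisc.holo) fun _ _ => hD0 _)
  have hGd : ∀ x : Orb p, MDiff (fun τ => G x τ / x.dFac τ) ∧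
      IsBoundedAtImInfty (fun τ => G x τ / x.dFac τ) := by
    intro x
    have e : (fun τ => G x τ / x.dFac τ) =
        (R x * ∏ y ∈ Finset.univ.erase x, y.wSq) *
          (fun τ => ModularForm.discriminant τ ^ eW / (∏ x : Orb p, x.wSq) τ) *
          ((∏ y ∈ Finset.univ.erase x, y.dFac) *
            fun τ => ModularForm.discriminant τ ^ eD / (∏ x : Orb p, x.dFac) τ) := by
      funext τ
      simp only [G, Pi.mul_apply, Finset.prod_apply]
      rw [← Finset.mul_prod_erase Finset.univ (fun y : Orb p => y.wSq τ) (Finset.mem_univ x),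
        ← Finset.mul_prod_erase Finset.univ (fun y : Orb p => y.dFac τ) (Finset.mem_univ x)]
      have h1 := wSq_ne hp x τ
      have h2 := hdne x τ
      have h3 : ∏ y ∈ Finset.univ.erase x, y.wSq τ ≠ 0 :=
        Finset.prod_ne_zero_iff.mpr fun y _ => wSq_ne hp y τ
      have h4 : ∏ y ∈ Finset.univ.erase x, y.dFac τ ≠ 0 :=
        Finset.prod_ne_zero_iff.mpr fun y _ => hdne y τ
      rw [show m = eW + eD from rfl, pow_add]
      field_simp
    obtain ⟨a1, a2⟩ := prod_nice (Finset.univ.erase x) Orb.wSq (fun y _ => mdiff_wSq y)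
      fun y _ => bdd_wSq y
    obtain ⟨b1, b2⟩ := prod_nice (Finset.univ.erase x) Orb.dFac (fun y _ => (hdnice y).1)
      fun y _ => (hdnice y).2
    have r1 : MDiff (R x) := (hg.holo.slash 1 (x.sec : GL (Fin 2) ℝ)).mul (wdVal_mdiff _)
    have r2 : IsBoundedAtImInfty (R x) := Filter.BoundedAtFilter.mul (hg.bdd _) (wdVal_bdd _)
    rw [e]
    exact ⟨((r1.mul a1).mul hinvW).mul (b1.mul hinvD), Filter.BoundedAtFilter.mul
      (Filter.BoundedAtFilter.mul (Filter.BoundedAtFilter.mul r2 a2) heW)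
      (Filter.BoundedAtFilter.mul b2 heD)⟩
  have hlin : ∀ (s : Finset (Orb p)) (i : ℕ),
      MDiff (fun τ : ℍ => ((∏ y ∈ s, (X - C (y.pVal τ))).coeff i : ℂ)) ∧
      IsBoundedAtImInfty (fun τ : ℍ => ((∏ y ∈ s, (X - C (y.pVal τ))).coeff i : ℂ)) := by
    intro s
    induction s using Finset.cons_induction with
    | empty =>
      intro i
      simp only [Finset.prod_empty]
      exact ⟨(mdifferentiable_const : MDiff (fun _ : ℍ => (1 : ℂ[X]).coeff i)),
        Filter.const_boundedAtFilter _ _⟩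
    | cons a s ha ih =>
      intro i
      obtain ⟨p1, p2⟩ := ih i
      have q1 := (mdiff_pVal hp a).mul p1
      have q2 := Filter.BoundedAtFilter.mul (bdd_pVal hp a) p2
      rcases i with _ | j
      · have e : (fun τ => (∏ y ∈ Finset.cons a s ha, (X - C (y.pVal τ))).coeff 0) =
            -(a.pVal * fun τ => (∏ y ∈ s, (X - C (y.pVal τ))).coeff 0) := by
          funext τ
          rw [Finset.prod_cons]
          simp [Polynomial.mul_coeff_zero]
        rw [e]
        exact ⟨q1.neg, Filter.BoundedAtFilter.neg q2⟩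
      · have e : (fun τ => (∏ y ∈ Finset.cons a s ha, (X - C (y.pVal τ))).coeff (j + 1)) =
            (fun τ => (∏ y ∈ s, (X - C (y.pVal τ))).coeff j) -
              (a.pVal * fun τ => (∏ y ∈ s, (X - C (y.pVal τ))).coeff (j + 1)) := by
          funext τ
          rw [Finset.prod_cons]
          simp [sub_mul, Polynomial.coeff_X_mul]
        obtain ⟨o1, o2⟩ := ih j
        rw [e, sub_eq_add_neg]
        exact ⟨o1.add q1.neg, Filter.BoundedAtFilter.add o2 (Filter.BoundedAtFilter.neg q2)⟩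
  have hA : ∀ i : ℕ, IsLevel (w - 2 * i) (fun τ => (Q τ).coeff i) := by
    intro i
    have hterm : ∀ x : Orb p,
        MDiff ((fun τ : ℍ => G x τ / x.dFac τ) *
          fun τ : ℍ => ((∏ y ∈ Finset.univ.erase x, (X - C (y.pVal τ))).coeff i : ℂ)) ∧
        IsBoundedAtImInfty ((fun τ : ℍ => G x τ / x.dFac τ) *
          fun τ : ℍ => ((∏ y ∈ Finset.univ.erase x, (X - C (y.pVal τ))).coeff i : ℂ)) := fun x =>
      ⟨(hGd x).1.mul (hlin _ i).1, Filter.BoundedAtFilter.mul (hGd x).2 (hlin _ i).2⟩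
    obtain ⟨s1, s2⟩ := sum_nice Finset.univ _ (fun x _ => (hterm x).1) fun x _ => (hterm x).2
    have e : (fun τ => (Q τ).coeff i) = ∑ x : Orb p, (fun τ : ℍ => G x τ / x.dFac τ) *
        fun τ : ℍ => ((∏ y ∈ Finset.univ.erase x, (X - C (y.pVal τ))).coeff i : ℂ) := by
      funext τ
      simp [Q, finsetSum_coeff, Finset.sum_apply]
    refine ⟨e ▸ s1, fun γ => funext fun τ => ?_, e ▸ s2⟩
    rw [ModularForm.SL_slash_apply, hQsmul, mul_right_comm, ← zpow_add₀
      (UpperHalfPlane.denom_ne_zero _ τ), add_neg_cancel, zpow_zero, one_mul]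
  have hexp : ∀ i : ℕ, ∃ κ : ℕ × ℕ → ℂ,
      (fun τ => (Q τ).coeff i) = ∑ x ∈ monIndex (w - 2 * i), κ x • monFn x := fun i => by
    obtain ⟨κ, hκ⟩ := (Submodule.mem_span_image_finset_iff_exists_fun' ℂ).mp (hA i).mem_monSpan
    exact ⟨κ, hκ.symm⟩
  choose κ hκ using hexp
  refine ⟨fun l => κ l.1 l.2 / (12 : ℂ) ^ l.1, funext fun τ => ?_⟩
  obtain ⟨x0, hx0⟩ : ∃ x0 : Orb p, x0 = Orb.mk' 1 := ⟨_, rfl⟩
  have hv : x0.vec = baseVec p ∨ x0.vec = -baseVec p := by
    have h := Orb.vec_mk' (p := p) 1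
    rw [rowAct_one, ← hx0] at h
    exact h
  have hP0 : x0.pVal τ = wpVal (baseVec p) τ := by
    rcases hv with e | e <;> simp [Orb.pVal, e, (wpVal_neg _ τ).1]
  have hR0 : R x0 τ = g τ * wdVal (baseVec p) τ := by
    rcases hv with e | e
    · have hg0 : g ∣[(1 : ℤ)] x0.sec = g := hg.slash _ e
      simp only [R, Pi.mul_apply, hg0, e]
    · have h2 : rowAct (baseVec p) (-1 * x0.sec) = baseVec p := by
        rw [rowAct_mul, show rowAct (baseVec p) (-1) = -baseVec p by simp [rowAct, baseVec],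
          rowAct_neg, show rowAct (baseVec p) x0.sec = -baseVec p from e, neg_neg]
      have h3 := hg.slash _ h2
      rw [SlashAction.slash_mul, hgneg, SlashAction.neg_slash] at h3
      have h4 : (g ∣[(1 : ℤ)] x0.sec) τ = -g τ := by
        have := congrFun h3 τ
        rw [Pi.neg_apply] at this
        linear_combination -this
      simp only [R, Pi.mul_apply, h4, e, (wpVal_neg _ τ).2]
      ring
  have hW : x0.wSq τ = wdVal (baseVec p) τ ^ 2 := by
    rcases hv with e | e <;> simp [Orb.wSq, e, (wpVal_neg _ τ).2]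
  have hgQ : g τ = wdVal (baseVec p) τ * ((ModularForm.discriminant τ)⁻¹) ^ m *
      (Q τ).eval (x0.pVal τ) := by
    rw [hQeval]
    simp only [G, hR0, hW, inv_pow]
    have := wdVal_ne_zero (baseVec_ne hp).2 τ
    have hΔ0 := pow_ne_zero m (ModularForm.discriminant_ne_zero τ)
    field_simp
  have hdeg : (Q τ).natDegree < n := by
    rcases eq_or_ne (Q τ) 0 with h0 | h0
    · rw [h0, Polynomial.natDegree_zero]
      exact Fintype.card_pos_iff.mpr ⟨x0⟩
    · exact (Polynomial.natDegree_lt_iff_degree_lt h0).mpr (hQdeg τ)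
  rw [hgQ, Polynomial.eval_eq_sum_range' (n := n) hdeg]
  simp only [combo, Pi.mul_apply, Pi.pow_apply, Finset.sum_apply, Pi.smul_apply, smul_eq_mul]
  congr 1
  rw [spanIdx, Finset.sum_biUnion]
  · refine Finset.sum_congr rfl fun i _ => ?_
    rw [Finset.sum_image fun a _ b _ h => congrArg Prod.snd h, hP0,
      show (Q τ).coeff i = _ from congrFun (hκ i) τ, Finset.sum_apply, Finset.sum_mul]
    refine Finset.sum_congr rfl fun x _ => ?_
    simp only [Pi.smul_apply, smul_eq_mul, mul_pow]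
    field_simp
  · intro a _ b _ hab
    simp only [Function.onFun, Finset.disjoint_left, Finset.mem_image]
    rintro z ⟨u, -, rfl⟩ ⟨v, -, hvz⟩
    exact hab (congrArg Prod.fst hvz).symm

end Fermat.Agent.Row48.Coefficients
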