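import Mathlib.RingTheory.Polynomial.Resultant.Basic
import Fermat.Agent.Row48.Coefficients.Orbit

/-!
# Cuspidality as polynomial equations over `ℚ` in the coordinates

The monic polynomial with roots `12 ℘` over the orbit has coefficients in `ℚ[E₄, E₆]`; a resultant
then gives the polynomial whose roots are the squared translates of a combination.
-/

set_option autoImplicit false

noncomputable section

open Filter Topology UpperHalfPlane ModularForm Polynomial
open scoped Real Manifold MatrixGroups ModularForm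

namespace Fermat.Agent.Row48.Coefficients

open X0Analytic

variable {p : ℕ} [NeZero p]

/-- `12 ℘` at a member of the orbit. -/
def Orb.root (x : Orb p) : ℍ → ℂ := fun τ => 12 * x.pVal τ

theorem trans_root : Trans 2 (Orb.root (p := p)) := fun γ x τ => by
  simp only [Orb.root, trans_pVal γ x τ]
  ring

theorem root_injective (hp : 2 < p) (τ : ℍ) :
    Function.Injective fun x : Orb p => x.root τ := by
  intro x y h
  by_contra hne
  exact pVal_ne hp hne τ (sub_eq_zero.mpr (mul_left_cancel₀ (by norm_num : (12 : ℂ) ≠ 0) h))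

/-! ### Monic polynomials with prescribed roots -/

omit [NeZero p] in
theorem coeff_prod_nice {ι : Type*} (s : Finset ι) (F : ι → ℍ → ℂ) (h : ∀ i ∈ s, MDiff (F i))
    (hb : ∀ i ∈ s, IsBoundedAtImInfty (F i)) (j : ℕ) :
    MDiff (fun τ : ℍ => ((∏ i ∈ s, (X - C (F i τ))).coeff j : ℂ)) ∧
      IsBoundedAtImInfty (fun τ : ℍ => ((∏ i ∈ s, (X - C (F i τ))).coeff j : ℂ)) := by
  induction s using Finset.cons_induction generalizing j with
  | empty =>
    simp only [Finset.prod_empty]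
    exact ⟨(mdifferentiable_const : MDiff (fun _ : ℍ => (1 : ℂ[X]).coeff j)),
      Filter.const_boundedAtFilter _ _⟩
  | cons a s ha ih =>
    have ih' := ih (fun i hi => h i (Finset.mem_cons_of_mem hi))
      (fun i hi => hb i (Finset.mem_cons_of_mem hi))
    have hP := h a (Finset.mem_cons_self a s)
    have hP' := hb a (Finset.mem_cons_self a s)
    obtain ⟨p1, p2⟩ := ih' j
    rcases j with _ | i
    · have e : (fun τ : ℍ => ((∏ i ∈ Finset.cons a s ha, (X - C (F i τ))).coeff 0 : ℂ)) =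
          -(F a * fun τ : ℍ => ((∏ i ∈ s, (X - C (F i τ))).coeff 0 : ℂ)) := by
        funext τ
        rw [Finset.prod_cons]
        simp [Polynomial.mul_coeff_zero]
      rw [e]
      exact ⟨(hP.mul p1).neg, Filter.BoundedAtFilter.neg (Filter.BoundedAtFilter.mul hP' p2)⟩
    · have e : (fun τ : ℍ => ((∏ i ∈ Finset.cons a s ha, (X - C (F i τ))).coeff (i + 1) : ℂ)) =
          (fun τ : ℍ => ((∏ i ∈ s, (X - C (F i τ))).coeff i : ℂ)) -
            (F a * fun τ : ℍ => ((∏ i ∈ s, (X - C (F i τ))).coeff (i + 1) : ℂ)) := by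
        funext τ
        rw [Finset.prod_cons]
        simp [sub_mul, Polynomial.coeff_X_mul]
      obtain ⟨o1, o2⟩ := ih' i
      rw [e, sub_eq_add_neg]
      exact ⟨o1.add (hP.mul p1).neg,
        Filter.BoundedAtFilter.add o2
          (Filter.BoundedAtFilter.neg (Filter.BoundedAtFilter.mul hP' p2))⟩

omit [NeZero p] in
theorem coeff_prod_scale {ι : Type*} (s : Finset ι) (z : ι → ℂ) (a : ℂ) (j : ℕ) :
    (∏ i ∈ s, (X - C (a * z i))).coeff j * a ^ j =
      a ^ s.card * (∏ i ∈ s, (X - C (z i))).coeff j := by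
  rw [← Polynomial.comp_C_mul_X_coeff, ← Polynomial.coeff_C_mul, map_pow, ← Finset.prod_const,
    ← Finset.prod_mul_distrib, Polynomial.prod_comp]
  congr 1
  refine Finset.prod_congr rfl fun i _ => ?_
  rw [Polynomial.sub_comp, Polynomial.X_comp, Polynomial.C_comp, map_mul, ← mul_sub]

omit [NeZero p] in
theorem tendsto_coeff_prod {ι α : Type*} (s : Finset ι) {l : Filter α} {F : ι → α → ℂ} {a : ι → ℂ}
    (h : ∀ i ∈ s, Tendsto (F i) l (𝓝 (a i))) (j : ℕ) :
    Tendsto (fun t => ((∏ i ∈ s, (X - C (F i t))).coeff j : ℂ)) l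
      (𝓝 ((∏ i ∈ s, (X - C (a i))).coeff j)) := by
  induction s using Finset.cons_induction generalizing j with
  | empty => simp only [Finset.prod_empty]; exact tendsto_const_nhds
  | cons b s hb ih =>
    have ih' := ih fun i hi => h i (Finset.mem_cons_of_mem hi)
    have hF := h b (Finset.mem_cons_self b s)
    simp only [Finset.prod_cons, sub_mul, Polynomial.coeff_sub, Polynomial.coeff_C_mul]
    rcases j with _ | i
    · simpa [Polynomial.mul_coeff_zero] using (hF.mul (ih' 0)).neg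
    · simp only [Polynomial.coeff_X_mul]
      exact (ih' i).sub (hF.mul (ih' (i + 1)))

omit [NeZero p] in
/-- A root is small when the lower coefficients are. -/
theorem norm_root_lt {n : ℕ} {P : ℂ[X]} (hP : P.Monic) (hdeg : P.natDegree = n) {r : ℂ}
    (hr : P.eval r = 0) {ε : ℝ} (hε : 0 < ε) (hε1 : ε ≤ 1)
    (hS : ∑ j ∈ Finset.range n, ‖P.coeff j‖ < ε ^ n) : ‖r‖ < ε := by
  by_contra hlt
  rw [not_lt] at hlt
  rw [Polynomial.eval_eq_sum_range, hdeg, Finset.sum_range_succ,
    show P.coeff n = 1 from hdeg ▸ hP.coeff_natDegree, one_mul] at hr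
  have h1 : ‖r‖ ^ n ≤ ∑ j ∈ Finset.range n, ‖P.coeff j‖ * ‖r‖ ^ j := by
    rw [← norm_pow, eq_neg_of_add_eq_zero_right hr, norm_neg]
    refine (norm_sum_le _ _).trans (le_of_eq ?_)
    simp only [norm_mul, norm_pow]
  have hS0 : 0 ≤ ∑ j ∈ Finset.range n, ‖P.coeff j‖ := Finset.sum_nonneg fun j _ => norm_nonneg _
  rcases le_total 1 ‖r‖ with h | h
  · have h2 : ∑ j ∈ Finset.range n, ‖P.coeff j‖ * ‖r‖ ^ j ≤
        (∑ j ∈ Finset.range n, ‖P.coeff j‖) * ‖r‖ ^ n := by
      rw [Finset.sum_mul]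
      exact Finset.sum_le_sum fun j hj => mul_le_mul_of_nonneg_left
        (pow_le_pow_right₀ h (Finset.mem_range.mp hj).le) (norm_nonneg _)
    have h3 : (∑ j ∈ Finset.range n, ‖P.coeff j‖) < 1 :=
      hS.trans_le (pow_le_one₀ hε.le hε1)
    have h4 : 0 < ‖r‖ ^ n := pow_pos (lt_of_lt_of_le one_pos h) n
    nlinarith
  · have h2 : ∑ j ∈ Finset.range n, ‖P.coeff j‖ * ‖r‖ ^ j ≤
        ∑ j ∈ Finset.range n, ‖P.coeff j‖ :=
      Finset.sum_le_sum fun j _ => mul_le_of_le_one_right (norm_nonneg _)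
        (pow_le_one₀ (norm_nonneg _) h)
    have h3 : ε ^ n ≤ ‖r‖ ^ n := pow_le_pow_left₀ hε.le hlt n
    linarith

/-! ### Rationality -/

/-- The series of `12 ℘` at `τ / p`. -/
def rootSer (p : ℕ) : LaurentSeries ℤ :=
  HahnSeries.ofPowerSeries ℤ ℤ
    (PowerSeries.mk fun k => (if k = 0 then 1 else 0) + 12 * wpCoeff p k)

theorem hasSer_root (hp : 2 < p) :
    HasSer p (fun τ => 12 * wpVal (baseVec p) τ) (rootSer p) := by
  refine HasSer.of_hasSum ?_ fun τ => ?_
  · exact (wpVal_mdiff (baseVec_ne hp).1).const_smul (12 : ℂ)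
  · have h := (hasSum_ite_eq 0 (1 : ℂ)).add ((hasSum_wpVal hp τ).mul_left 12)
    rw [show (1 : ℂ) + 12 * (wpVal (baseVec p) τ - 1 / 12) = 12 * wpVal (baseVec p) τ by ring] at h
    refine h.congr_fun fun k => ?_
    rcases k with _ | k <;> (simp [smul_eq_mul]; try ring)

/-- The series of a monomial at period `p`. -/
def monSer (p : ℕ) [NeZero p] (x : ℕ × ℕ) : LaurentSeries ℤ :=
  ModularCurve.qExpand ℤ p ((HahnSeries.ofPowerSeries ℤ ℤ ModularCurve.eisenstein4) ^ x.1 *
    (HahnSeries.ofPowerSeries ℤ ℤ Mazur.Moduli.eisenstein6) ^ x.2)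

theorem hasSer_monFn (x : ℕ × ℕ) : HasSer p (monFn x) (monSer p x) :=
  ((hasSer_E4.pow x.1).mul (hasSer_E6.pow x.2)).expand

/-- Complex relations among functions with integral series remain true after a rational linear
projection of the scalars. -/
theorem rational_relation {α : Type*} (s : Finset α) {F : α → ℍ → ℂ} {S : α → LaurentSeries ℤ}
    {F0 : ℍ → ℂ} {S0 : LaurentSeries ℤ} (h0 : HasSer p F0 S0) (hF : ∀ a, HasSer p (F a) (S a))
    {κ : α → ℂ} (h : F0 + ∑ a ∈ s, κ a • F a = 0) (lam : ℂ →ₗ[ℚ] ℚ) (h1 : lam 1 = 1) :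
    F0 + ∑ a ∈ s, (lam (κ a) : ℂ) • F a = 0 := by
  let el : (α → ℂ) → ↥(perMero p) := fun μ =>
    ⟨F0, h0.mem⟩ + ∑ a ∈ s, μ a • ⟨F a, (hF a).mem⟩
  have hcoe : ∀ μ : α → ℂ, ((el μ : ↥(perMero p)) : ℍ → ℂ) = F0 + ∑ a ∈ s, μ a • F a := fun μ => by
    simp only [el, AddMemClass.coe_add, AddSubmonoidClass.coe_finsetSum, SetLike.val_smul]
  have hser : ∀ (μ : α → ℂ) (k : ℤ), (qSer p (el μ)).coeff k =
      (S0.coeff k : ℂ) + ∑ a ∈ s, μ a * ((S a).coeff k : ℂ) := fun μ k => by
    simp only [el, Algebra.smul_def, map_add, map_sum, map_mul, qSer_algebraMap, h0.ser,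
      (hF _).ser, HahnSeries.coeff_add, HahnSeries.coeff_sum, HahnSeries.coeff_single_zero_mul]
    simp [intSer]
  rw [← hcoe]
  suffices el (fun a => (lam (κ a) : ℂ)) = 0 by rw [this]; rfl
  refine qSer_injective (h := p) ?_
  rw [map_zero]
  ext k
  have hk : (S0.coeff k : ℂ) + ∑ a ∈ s, κ a * ((S a).coeff k : ℂ) = 0 := by
    rw [← hser, show el κ = 0 from Subtype.ext ((hcoe κ).trans h), map_zero]
    rfl
  have hl := congrArg lam hk
  have hint : ∀ z : ℤ, lam (z : ℂ) = z := fun z => by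
    rw [show (z : ℂ) = z • (1 : ℂ) by simp, map_zsmul, h1]
    simp
  have hmul : ∀ (x : ℂ) (z : ℤ), lam (x * (z : ℂ)) = lam x * z := fun x z => by
    rw [show x * (z : ℂ) = z • x by rw [zsmul_eq_mul, mul_comm], map_zsmul, zsmul_eq_mul, mul_comm]
  simp only [map_add, map_sum, map_zero, hint, hmul] at hl
  rw [hser, HahnSeries.coeff_zero]
  exact_mod_cast congrArg (fun r : ℚ => (r : ℂ)) hl

variable (p) in
/-- The monic polynomial over the orbit, with given coordinates of the coefficients. -/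
def formPoly (q : ℕ → ℕ × ℕ → ℂ) (τ : ℍ) : ℂ[X] :=
  X ^ Fintype.card (Orb p) + ∑ j ∈ Finset.range (Fintype.card (Orb p)),
    C (∑ x ∈ monIndex (2 * (Fintype.card (Orb p) : ℤ) - 2 * j), q j x * monFn x τ) * X ^ j

theorem formPoly_monic (q : ℕ → ℕ × ℕ → ℂ) (τ : ℍ) :
    (formPoly p q τ).Monic ∧ (formPoly p q τ).natDegree = Fintype.card (Orb p) := by
  have hlt : (∑ j ∈ Finset.range (Fintype.card (Orb p)),
      C (∑ x ∈ monIndex (2 * (Fintype.card (Orb p) : ℤ) - 2 * j), q j x * monFn x τ) *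
        X ^ j).degree <
      (Fintype.card (Orb p) : WithBot ℕ) :=
    lt_of_le_of_lt (Polynomial.degree_sum_le _ _) ((Finset.sup_lt_iff (WithBot.bot_lt_coe _)).mpr
      fun j hj => lt_of_le_of_lt (Polynomial.degree_C_mul_X_pow_le _ _)
        (Nat.cast_lt.mpr (Finset.mem_range.mp hj)))
  refine ⟨Polynomial.monic_X_pow_add hlt, ?_⟩
  refine Polynomial.natDegree_eq_of_degree_eq_some ?_
  rw [formPoly, Polynomial.degree_add_eq_left_of_degree_lt (by rwa [Polynomial.degree_X_pow]),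
    Polynomial.degree_X_pow]

theorem eval_formPoly (q : ℕ → ℕ × ℕ → ℂ) (τ : ℍ) (z : ℂ) :
    (formPoly p q τ).eval z = z ^ Fintype.card (Orb p) +
      ∑ j ∈ Finset.range (Fintype.card (Orb p)),
        (∑ x ∈ monIndex (2 * (Fintype.card (Orb p) : ℤ) - 2 * j), q j x * monFn x τ) * z ^ j := by
  simp [formPoly, Polynomial.eval_finsetSum]

/-- **The orbit polynomial is defined over `ℚ[E₄, E₆]`.** -/
theorem exists_rationalPoly (hp : 2 < p) : ∃ q : ℕ → ℕ × ℕ → ℚ,
    ∀ τ, formPoly p (fun j x => (q j x : ℂ)) τ = ∏ x : Orb p, (X - C (x.root τ)) := by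
  classical
  set n := Fintype.card (Orb p) with hn
  have hP : ∀ τ, (∏ x : Orb p, (X - C (x.root τ))).Monic ∧
      (∏ x : Orb p, (X - C (x.root τ))).natDegree = n := fun τ =>
    ⟨monic_prod_of_monic _ _ fun x _ => monic_X_sub_C _,
      by rw [Polynomial.natDegree_finsetProd_X_sub_C_eq_card, Finset.card_univ]⟩
  have hsum : ∀ q : ℕ → ℕ × ℕ → ℂ, ∀ (τ : ℍ) (i : ℕ), i < n → (formPoly p q τ).coeff i =
      ∑ x ∈ monIndex (2 * (n : ℤ) - 2 * i), q i x * monFn x τ := fun q τ i hi => by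
    rw [formPoly, ← hn, Polynomial.coeff_add, Polynomial.coeff_X_pow, if_neg hi.ne, zero_add,
      finsetSum_coeff, Finset.sum_eq_single i]
    · rw [Polynomial.coeff_C_mul_X_pow, if_pos rfl]
    · intro j _ hj
      rw [Polynomial.coeff_C_mul_X_pow, if_neg hj.symm]
    · simp [hi]
  -- complex coordinates
  have hex : ∀ j : ℕ, ∃ κ : ℕ × ℕ → ℂ, ∀ τ, (∏ x : Orb p, (X - C (x.root τ))).coeff j =
      ∑ x ∈ monIndex (2 * (n : ℤ) - 2 * j), κ x * monFn x τ := by
    intro j
    have hroot : ∀ x : Orb p, MDiff x.root ∧ IsBoundedAtImInfty x.root := fun x =>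
      ⟨(mdiff_pVal hp x).const_smul (12 : ℂ),
        Filter.BoundedAtFilter.mul (Filter.const_boundedAtFilter _ (12 : ℂ)) (bdd_pVal hp x)⟩
    obtain ⟨h1, h2⟩ := coeff_prod_nice Finset.univ Orb.root (fun x _ => (hroot x).1)
      (fun x _ => (hroot x).2) j
    have hlev : IsLevel (2 * (n : ℤ) - 2 * j)
        (fun τ : ℍ => ((∏ x : Orb p, (X - C (x.root τ))).coeff j : ℂ)) := by
      refine ⟨h1, fun γ => funext fun τ => ?_, h2⟩
      set u := UpperHalfPlane.denom (γ : GL (Fin 2) ℝ) τ with hu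
      have hu0 : u ≠ 0 := UpperHalfPlane.denom_ne_zero _ τ
      have e : ∏ x : Orb p, (X - C (x.root (γ • τ))) =
          ∏ x : Orb p, (X - C (u ^ (2 : ℤ) * x.root τ)) := by
        simp only [trans_root γ _ τ]
        exact Fintype.prod_bijective (fun x : Orb p => x.act γ)
          ⟨Orb.act_injective γ, Finite.injective_iff_surjective.mp (Orb.act_injective γ)⟩ _ _
          fun x => rfl
      have hc := coeff_prod_scale Finset.univ (fun x : Orb p => x.root τ) (u ^ (2 : ℤ)) j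
      rw [Finset.card_univ, ← hn] at hc
      rw [ModularForm.SL_slash_apply]
      simp only [e, ← hu]
      have h3 : (u ^ (2 : ℤ)) ^ j * u ^ (2 * (n : ℤ) - 2 * j) = (u ^ (2 : ℤ)) ^ n := by
        rw [← zpow_natCast, ← zpow_mul, ← zpow_natCast, ← zpow_mul, ← zpow_add₀ hu0]
        congr 1; ring
      rw [zpow_neg, ← div_eq_mul_inv, div_eq_iff (zpow_ne_zero _ hu0)]
      refine mul_right_cancel₀ (pow_ne_zero j (zpow_ne_zero 2 hu0)) (hc.trans ?_)
      rw [← h3]
      ring
    obtain ⟨κ, hκ⟩ := (Submodule.mem_span_image_finset_iff_exists_fun' ℂ).mp hlev.mem_monSpan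
    exact ⟨κ, fun τ => by simpa using (congrFun hκ τ).symm⟩
  choose κ hκ using hex
  have hκP : ∀ τ, formPoly p κ τ = ∏ x : Orb p, (X - C (x.root τ)) := fun τ => by
    ext i
    rcases lt_trichotomy i n with hi | rfl | hi
    · rw [hsum _ _ _ hi, hκ]
    · rw [hn]
      conv_lhs => rw [← (formPoly_monic κ τ).2, (formPoly_monic κ τ).1.coeff_natDegree]
      conv_rhs => rw [← hn, ← (hP τ).2, (hP τ).1.coeff_natDegree]
    · rw [Polynomial.coeff_eq_zero_of_natDegree_lt (by rwa [(formPoly_monic κ τ).2]),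
        Polynomial.coeff_eq_zero_of_natDegree_lt (by rwa [(hP τ).2])]
  -- the projection of the scalars
  obtain ⟨lam, hlam⟩ := LinearMap.exists_leftInverse_of_injective (Algebra.linearMap ℚ ℂ)
    (LinearMap.ker_eq_bot.mpr (algebraMap ℚ ℂ).injective)
  have h1 : lam 1 = 1 := by simpa using LinearMap.congr_fun hlam 1
  refine ⟨fun j x => lam (κ j x), fun τ => ?_⟩
  set q : ℕ → ℕ × ℕ → ℂ := fun j x => (lam (κ j x) : ℂ) with hq
  -- the relation at the base member
  let W : ℍ → ℂ := fun τ => 12 * wpVal (baseVec p) τ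
  let idx := (Finset.range n).sigma fun j => monIndex (2 * (n : ℤ) - 2 * (j : ℕ))
  have key : ∀ (μ : ℕ → ℕ × ℕ → ℂ) (τ : ℍ), (W ^ n + ∑ a ∈ idx,
      μ a.1 a.2 • (monFn a.2 * W ^ a.1)) τ = (formPoly p μ τ).eval (W τ) := fun μ τ => by
    rw [eval_formPoly, ← hn, Pi.add_apply, Finset.sum_apply, Finset.sum_sigma]
    simp [Finset.sum_mul, mul_assoc]
  obtain ⟨x0, hx0⟩ : ∃ x0 : Orb p, x0 = Orb.mk' 1 := ⟨_, rfl⟩
  have hW0 : ∀ τ, W τ = x0.root τ := fun τ => by
    have h := Orb.vec_mk' (p := p) 1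
    rw [rowAct_one, ← hx0] at h
    rcases h with e | e <;> simp [W, Orb.root, Orb.pVal, e, (wpVal_neg _ τ).1]
  have hrel : W ^ n + ∑ a ∈ idx, κ a.1 a.2 • (monFn a.2 * W ^ a.1) = 0 := funext fun τ => by
    rw [key, hκP, Polynomial.eval_prod, hW0]
    exact Finset.prod_eq_zero (Finset.mem_univ x0) (by simp)
  have hrel' := rational_relation idx ((hasSer_root hp).pow n)
    (fun a => (hasSer_monFn a.2).mul ((hasSer_root hp).pow a.1)) hrel lam h1
  have hbase : ∀ τ, (formPoly p q τ).eval (W τ) = 0 := fun τ => by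
    rw [← key]; exact congrFun hrel' τ
  -- all members are roots
  have hroots : ∀ x : Orb p, (formPoly p q τ).eval (x.root τ) = 0 := by
    intro x
    have h := hbase (x.sec • τ)
    set u := UpperHalfPlane.denom (x.sec : GL (Fin 2) ℝ) τ
    have hu0 : u ≠ 0 := UpperHalfPlane.denom_ne_zero _ τ
    have hWx : W (x.sec • τ) = u ^ (2 : ℤ) * x.root τ := by
      simp only [W, Orb.root, Orb.pVal, apply_smul_of_slash (wpVal_slash (baseVec p) x.sec) τ]
      rw [← Orb.vec]
      ring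
    have hmon : ∀ j, ∀ a ∈ monIndex (2 * (n : ℤ) - 2 * (j : ℕ)),
        monFn a (x.sec • τ) = u ^ (2 * (n : ℤ) - 2 * j) * monFn a τ := fun j a ha => by
      rw [apply_smul_of_slash ((isLevel_monFn a).slash x.sec) τ, mem_monIndex.mp ha]
    rw [eval_formPoly, ← hn, hWx] at h
    have e : (u ^ (2 : ℤ) * x.root τ) ^ n + ∑ j ∈ Finset.range n,
        (∑ a ∈ monIndex (2 * (n : ℤ) - 2 * j), q j a * monFn a (x.sec • τ)) *
          (u ^ (2 : ℤ) * x.root τ) ^ j =
        (u ^ (2 : ℤ)) ^ n * (formPoly p q τ).eval (x.root τ) := by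
      rw [eval_formPoly, ← hn, mul_add, Finset.mul_sum, mul_pow]
      congr 1
      refine Finset.sum_congr rfl fun j _ => ?_
      rw [Finset.sum_mul, Finset.sum_mul, Finset.mul_sum]
      refine Finset.sum_congr rfl fun a ha => ?_
      rw [hmon j a ha, mul_pow]
      have h3 : u ^ (2 * (n : ℤ) - 2 * j) * (u ^ (2 : ℤ)) ^ j = (u ^ (2 : ℤ)) ^ n := by
        rw [← zpow_natCast, ← zpow_mul, ← zpow_natCast, ← zpow_mul, ← zpow_add₀ hu0]
        congr 1; ring
      rw [← h3]
      ring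
    rw [e] at h
    exact (mul_eq_zero.mp h).resolve_left (pow_ne_zero _ (zpow_ne_zero _ hu0))
  obtain ⟨hm, hd⟩ := formPoly_monic (p := p) q τ
  refine Polynomial.eq_of_degree_sub_lt_of_eval_index_eq (s := Finset.univ)
    (v := fun x : Orb p => x.root τ) ((root_injective hp τ).injOn) ?_ fun x _ => ?_
  · refine (Polynomial.degree_sub_lt_left ?_ hm.ne_zero
      (hm.leadingCoeff.trans (hP τ).1.leadingCoeff.symm)).trans_le ?_
    · rw [Polynomial.degree_eq_natDegree hm.ne_zero,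
        Polynomial.degree_eq_natDegree (hP τ).1.ne_zero,
        hd, (hP τ).2]
    · rw [Polynomial.degree_eq_natDegree hm.ne_zero, hd, Finset.card_univ]
  · rw [hroots x, Polynomial.eval_prod, Finset.prod_eq_zero (Finset.mem_univ x) (by simp)]

/-! ### The universal polynomial -/

/-- Coordinates as a function on all indices. -/
def extC (m : ℕ) (c : ↥(spanIdx p m) → ℂ) (l : ℕ × ℕ × ℕ) : ℂ :=
  if h : l ∈ spanIdx p m then c ⟨l, h⟩ else 0

/-- The ring of the coordinates and of `E₄`, `E₆`. -/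
abbrev CoordRing (p : ℕ) [NeZero p] (m : ℕ) : Type :=
  MvPolynomial (↥(spanIdx p m) ⊕ Bool) ℚ

/-- `E₄ ^ a E₆ ^ b` in the coordinate ring. -/
def monR (m : ℕ) (x : ℕ × ℕ) : CoordRing p m :=
  MvPolynomial.X (Sum.inr true) ^ x.1 * MvPolynomial.X (Sum.inr false) ^ x.2

/-- The orbit polynomial in the coordinate ring. -/
def orbPolyR (m : ℕ) (q : ℕ → ℕ × ℕ → ℚ) : (CoordRing p m)[X] :=
  X ^ Fintype.card (Orb p) + ∑ j ∈ Finset.range (Fintype.card (Orb p)),
    C (∑ x ∈ monIndex (2 * (Fintype.card (Orb p) : ℤ) - 2 * j),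
      MvPolynomial.C (q j x) * monR m x) * X ^ j

/-- The square of a translate, times `Δ ^ (2m)`, as a polynomial in `12 ℘`. -/
def sqPolyR (m : ℕ) : (CoordRing p m)[X] :=
  C (MvPolynomial.C (1 / 432 : ℚ)) *
    (X ^ 3 - C (3 * MvPolynomial.X (Sum.inr true)) * X + C (2 * MvPolynomial.X (Sum.inr false))) *
    (∑ l : ↥(spanIdx p m), C (MvPolynomial.X (Sum.inl l) * monR m l.1.2) * X ^ l.1.1) ^ 2

/-- The resultant. -/
def sqResR (m : ℕ) (q : ℕ → ℕ × ℕ → ℚ) : (CoordRing p m)[X] :=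
  Polynomial.resultant ((orbPolyR m q).map C) (C X - (sqPolyR (p := p) m).map C)
    (Fintype.card (Orb p)) (C X - (sqPolyR (p := p) m).map C).natDegree

/-- Evaluation at `(c, E₄ τ, E₆ τ)`. -/
def evalAt (m : ℕ) (c : ↥(spanIdx p m) → ℂ) (τ : ℍ) : CoordRing p m →+* ℂ :=
  MvPolynomial.eval₂Hom (algebraMap ℚ ℂ)
    (Sum.elim c fun b => if b then ModularForm.E₄ τ else ModularForm.E₆ τ)

theorem evalAt_monR (m : ℕ) (c : ↥(spanIdx p m) → ℂ) (τ : ℍ) (x : ℕ × ℕ) :
    evalAt m c τ (monR m x) = monFn x τ := by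
  simp [evalAt, monR, monFn]

theorem eval_sqPolyR (hp : 2 < p) (m : ℕ) (c : ↥(spanIdx p m) → ℂ) (x : Orb p) (τ : ℍ) :
    ((sqPolyR m).map (evalAt m c τ)).eval (x.root τ) =
      ModularForm.discriminant τ ^ (2 * m) * combo m (extC m c) x.vec τ ^ 2 := by
  have hΔ := ModularForm.discriminant_ne_zero τ
  have hU : (∑ l : ↥(spanIdx p m), c l * monFn l.1.2 τ * (x.root τ) ^ l.1.1) =
      ∑ l ∈ spanIdx p m, extC m c l * ((12 * wpVal x.vec τ) ^ l.1 * monFn l.2 τ) := by
    rw [← Finset.sum_coe_sort (spanIdx p m)]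
    refine Finset.sum_congr rfl fun l _ => ?_
    simp only [extC, l.2, dif_pos, Subtype.coe_eta, Orb.root, Orb.pVal]
    ring
  have hL : ((sqPolyR m).map (evalAt m c τ)).eval (x.root τ) =
      (1 / 432) * ((x.root τ) ^ 3 - 3 * ModularForm.E₄ τ * x.root τ + 2 * ModularForm.E₆ τ) *
        (∑ l : ↥(spanIdx p m), c l * monFn l.1.2 τ * (x.root τ) ^ l.1.1) ^ 2 := by
    simp [sqPolyR, Polynomial.eval_finsetSum, Polynomial.map_sum, evalAt]
    simp [monFn, monR]
  rw [hL, hU]
  simp only [combo, Pi.mul_apply, Pi.pow_apply, Finset.sum_apply, Pi.smul_apply, smul_eq_mul,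
    Orb.root, Orb.pVal, mul_pow, wdVal_sq (x.vec_ne hp).1 τ, inv_pow, ← pow_mul]
  field_simp
  ring

theorem map_sqResR (hp : 2 < p) (m : ℕ) {q : ℕ → ℕ × ℕ → ℚ}
    (hq : ∀ τ, formPoly p (fun j x => (q j x : ℂ)) τ = ∏ x : Orb p, (X - C (x.root τ)))
    (c : ↥(spanIdx p m) → ℂ) (τ : ℍ) :
    (sqResR m q).map (evalAt m c τ) = ∏ x : Orb p,
      (X - C (ModularForm.discriminant τ ^ (2 * m) * combo m (extC m c) x.vec τ ^ 2)) := by
  set e := evalAt m c τ with he
  have hf : ((orbPolyR m q).map C).map (Polynomial.mapRingHom e) =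
      ∏ x : Orb p, ((X : (ℂ[X])[X]) - C (C (x.root τ))) := by
    rw [Polynomial.map_map, Polynomial.mapRingHom_comp_C, ← Polynomial.map_map,
      show (orbPolyR m q).map e = formPoly p (fun j x => (q j x : ℂ)) τ by
        simp [orbPolyR, formPoly, Polynomial.map_sum, he, evalAt_monR, map_sum]
        simp [evalAt], hq, Polynomial.map_prod]
    simp
  have hg : (C X - (sqPolyR (p := p) m).map C).map (Polynomial.mapRingHom e) =
      C X - ((sqPolyR m).map e).map C := by
    rw [Polynomial.map_sub, Polynomial.map_C, Polynomial.map_map, Polynomial.mapRingHom_comp_C,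
      ← Polynomial.map_map]
    simp
  rw [sqResR, ← Polynomial.coe_mapRingHom, ← Polynomial.resultant_map_map, hf, hg]
  set d := (C X - (sqPolyR (p := p) m).map C).natDegree
  have hd : (C X - ((sqPolyR m).map e).map C).natDegree ≤ d := by
    rw [← hg]; exact Polynomial.natDegree_map_le
  have hdeg : Fintype.card (Orb p) =
      (∏ x : Orb p, ((X : (ℂ[X])[X]) - C (C (x.root τ)))).natDegree := by
    rw [Polynomial.natDegree_finsetProd_X_sub_C_eq_card, Finset.card_univ]
  rw [hdeg, Polynomial.resultant_prod_left _ _ _ _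
    (Finset.prod_ne_zero_iff.mpr fun x _ => by simp) hd]
  refine Finset.prod_congr rfl fun x _ => ?_
  rw [Polynomial.natDegree_X_sub_C, Polynomial.resultant_X_sub_C_left _ _ _ hd,
    Polynomial.eval_sub, Polynomial.eval_C, Polynomial.eval_map, Polynomial.eval₂_at_apply,
    eval_sqPolyR hp]

/-! ### The equations -/

/-- Evaluation in functions of period one. -/
def funAt (m : ℕ) (c : ↥(spanIdx p m) → ℂ) : CoordRing p m →+* ↥(perMero 1) :=
  MvPolynomial.eval₂Hom ((algebraMap ℂ ↥(perMero 1)).comp (algebraMap ℚ ℂ))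
    (Sum.elim (fun l => algebraMap ℂ ↥(perMero 1) (c l))
      fun b => if b then ⟨_, hasSer_E4.mem⟩ else ⟨_, hasSer_E6.mem⟩)

theorem funAt_apply (m : ℕ) (c : ↥(spanIdx p m) → ℂ) (φ : CoordRing p m) (τ : ℍ) :
    ((funAt m c φ : ↥(perMero 1)) : ℍ → ℂ) τ = evalAt m c τ φ := by
  suffices ((Pi.evalRingHom (fun _ : ℍ => ℂ) τ).comp (perMero 1).val.toRingHom).comp (funAt m c) =
      evalAt m c τ from RingHom.congr_fun this φ
  refine MvPolynomial.ringHom_ext (fun r => ?_) fun i => ?_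
  · simp [funAt, evalAt]
  · rcases i with l | b
    · simp [funAt, evalAt]
    · cases b <;> simp [funAt, evalAt]

/-- The universal series. -/
def serR (m : ℕ) : CoordRing p m →+* LaurentSeries (MvPolynomial ↥(spanIdx p m) ℚ) :=
  MvPolynomial.eval₂Hom (HahnSeries.C.comp MvPolynomial.C)
    (Sum.elim (fun l => HahnSeries.C (MvPolynomial.X l)) fun b =>
      ModularCurve.coeffMap (Int.castRingHom _)
        (if b then HahnSeries.ofPowerSeries ℤ ℤ ModularCurve.eisenstein4
          else HahnSeries.ofPowerSeries ℤ ℤ Mazur.Moduli.eisenstein6))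

theorem qSer_funAt (m : ℕ) (c : ↥(spanIdx p m) → ℂ) (φ : CoordRing p m) :
    qSer 1 (funAt m c φ) =
      ModularCurve.coeffMap (MvPolynomial.eval₂Hom (algebraMap ℚ ℂ) c) (serR m φ) := by
  suffices (qSer 1).comp (funAt m c) =
      (ModularCurve.coeffMap (MvPolynomial.eval₂Hom (algebraMap ℚ ℂ) c)).comp (serR m) from
    RingHom.congr_fun this φ
  refine MvPolynomial.ringHom_ext (fun r => ?_) fun i => ?_
  · simp [funAt, serR, HahnSeries.C_apply]
  · rcases i with l | b
    · simp [funAt, serR, qSer_algebraMap, ModularCurve.coeffMap_single, HahnSeries.C_apply]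
    · have hc : ∀ S : LaurentSeries ℤ,
          ModularCurve.coeffMap (MvPolynomial.eval₂Hom (algebraMap ℚ ℂ) c)
            (ModularCurve.coeffMap (Int.castRingHom _) S) = intSer S := fun S => by
        rw [intSer, ModularCurve.coeffMap_coeffMap, Subsingleton.elim
          ((MvPolynomial.eval₂Hom (algebraMap ℚ ℂ) c).comp (Int.castRingHom _)) (Int.castRingHom ℂ)]
      cases b
      · simpa [funAt, serR, hc] using (hasSer_E6).ser
      · simpa [funAt, serR, hc] using (hasSer_E4).ser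

omit [NeZero p] in
theorem tendsto_zero_of_sq {α : Type*} {l : Filter α} {f : α → ℂ}
    (h : Tendsto (fun t => f t ^ 2) l (𝓝 0)) : Tendsto f l (𝓝 0) := by
  rw [tendsto_zero_iff_norm_tendsto_zero] at h ⊢
  simp only [norm_pow] at h
  have := (Real.continuous_sqrt.tendsto 0).comp h
  simpa [Function.comp_def, Real.sqrt_sq (norm_nonneg _)] using this

theorem isZero_combo_iff (_hp : 2 < p) (m : ℕ) (c : ℕ × ℕ × ℕ → ℂ) :
    (∀ γ : SL(2, ℤ), IsZeroAtImInfty (combo m c (baseVec p) ∣[(1 : ℤ)] γ)) ↔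
      ∀ x : Orb p, IsZeroAtImInfty (combo m c x.vec) := by
  constructor
  · intro h x
    have := h x.sec
    rwa [combo_slash, ← Orb.vec] at this
  · intro h γ
    rw [combo_slash]
    rcases Orb.vec_mk' (p := p) γ with e | e
    · exact e ▸ h (Orb.mk' γ)
    · have hneg : combo m c (rowAct (baseVec p) γ) = -combo m c (Orb.mk' γ : Orb p).vec := by
        funext τ
        simp [combo, e, (wpVal_neg _ τ).1, (wpVal_neg _ τ).2]
      rw [hneg]
      exact Filter.ZeroAtFilter.neg (h (Orb.mk' γ))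

/-- **Cuspidality is given by rational polynomial equations.** -/
theorem exists_cuspEqns (hp : 2 < p) (m : ℕ) :
    ∃ E : Set (MvPolynomial ↥(spanIdx p m) ℚ), ∀ c : ↥(spanIdx p m) → ℂ,
      (∀ γ : SL(2, ℤ), IsZeroAtImInfty (combo m (extC m c) (baseVec p) ∣[(1 : ℤ)] γ)) ↔
        ∀ e ∈ E, MvPolynomial.aeval c e = 0 := by
  classical
  obtain ⟨q, hq⟩ := exists_rationalPoly (p := p) hp
  set n := Fintype.card (Orb p) with hn
  let dS : LaurentSeries (MvPolynomial ↥(spanIdx p m) ℚ) :=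
    ModularCurve.coeffMap (Int.castRingHom _) discInvSer
  let S : ℕ → LaurentSeries (MvPolynomial ↥(spanIdx p m) ℚ) := fun j =>
    dS ^ (2 * m * (n - j)) * serR m ((sqResR m q).coeff j)
  refine ⟨{e | ∃ j < n, ∃ k : ℤ, k ≤ 0 ∧ e = (S j).coeff k}, fun c => ?_⟩
  let Z : ℕ → ↥(perMero 1) := fun j =>
    ⟨_, hasSer_discInv.mem⟩ ^ (2 * m * (n - j)) * funAt m c ((sqResR m q).coeff j)
  have hser : ∀ (j : ℕ) (k : ℤ), (qSer 1 (Z j)).coeff k = MvPolynomial.aeval c ((S j).coeff k) := by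
    intro j k
    have e1 : ModularCurve.coeffMap (MvPolynomial.eval₂Hom (algebraMap ℚ ℂ) c) dS =
        intSer discInvSer := by
      rw [intSer, ModularCurve.coeffMap_coeffMap, Subsingleton.elim
        ((MvPolynomial.eval₂Hom (algebraMap ℚ ℂ) c).comp (Int.castRingHom _)) (Int.castRingHom ℂ)]
    have e2 : qSer 1 (Z j) =
        ModularCurve.coeffMap (MvPolynomial.eval₂Hom (algebraMap ℚ ℂ) c) (S j) := by
      simp only [Z, S, map_mul, map_pow, e1, hasSer_discInv.ser, qSer_funAt]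
    rw [e2, ModularCurve.coeffMap_coeff]
    rfl
  have hZ : ∀ j < n, ∀ τ, (Z j : ℍ → ℂ) τ =
      (∏ x : Orb p, (X - C (combo m (extC m c) x.vec τ ^ 2))).coeff j := by
    intro j hj τ
    have hΔ := pow_ne_zero (2 * m) (ModularForm.discriminant_ne_zero τ)
    have h1 := coeff_prod_scale Finset.univ
      (fun x : Orb p => combo m (extC m c) x.vec τ ^ 2) (ModularForm.discriminant τ ^ (2 * m)) j
    rw [← map_sqResR hp m hq c τ, Polynomial.coeff_map, Finset.card_univ, ← hn] at h1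
    have hv : (Z j : ℍ → ℂ) τ = ((ModularForm.discriminant τ)⁻¹) ^ (2 * m * (n - j)) *
        evalAt m c τ ((sqResR m q).coeff j) := by
      simp [Z, funAt_apply]
    rw [hv]
    refine mul_left_cancel₀ (pow_ne_zero n hΔ) ?_
    rw [← h1, pow_mul ((ModularForm.discriminant τ)⁻¹) (2 * m) (n - j), inv_pow, inv_pow]
    set D := ModularForm.discriminant τ ^ (2 * m)
    have : D ^ n = D ^ (n - j) * D ^ j := by rw [← pow_add, Nat.sub_add_cancel hj.le]
    rw [this]
    field_simp
  have hzero : ∀ j, IsZeroAtImInfty (Z j : ℍ → ℂ) ↔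
      ∀ k : ℤ, k ≤ 0 → MvPolynomial.aeval c ((S j).coeff k) = 0 := by
    intro j
    constructor
    · intro h k hk
      rw [← hser]
      have hb : IsBoundedAtImInfty (Z j : ℍ → ℂ) :=
        Filter.Tendsto.isBigO_one ℝ (c := (0 : ℂ)) h
      rcases lt_or_eq_of_le hk with hk | rfl
      · exact (isBoundedAtImInfty_iff_coeff _).mp hb k hk
      · exact tendsto_nhds_unique (tendsto_atImInfty_coeff_zero _ hb) h
    · exact fun h => isZeroAtImInfty_of_coeff _ fun k hk => by rw [hser]; exact h k hk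
  rw [isZero_combo_iff hp]
  constructor
  · rintro h e ⟨j, hj, k, hk, rfl⟩
    refine (hzero j).mp ?_ k hk
    have ht := tendsto_coeff_prod Finset.univ
      (F := fun (x : Orb p) τ => combo m (extC m c) x.vec τ ^ 2) (a := fun _ => (0 : ℂ))
      (fun x _ => by simpa using Filter.Tendsto.pow (h x) 2) j
    simp only [map_zero, sub_zero, Finset.prod_const, Finset.card_univ, ← hn,
      Polynomial.coeff_X_pow, if_neg hj.ne] at ht
    exact ht.congr fun τ => (hZ j hj τ).symm
  · intro h x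
    refine tendsto_zero_of_sq ?_
    rw [NormedAddGroup.tendsto_nhds_zero]
    intro ε hε
    have hε' : 0 < min ε 1 := lt_min hε one_pos
    have hS : Tendsto (fun τ => ∑ j ∈ Finset.range n, ‖(Z j : ℍ → ℂ) τ‖) atImInfty (𝓝 0) := by
      simpa using tendsto_finsetSum (Finset.range n) fun j hj =>
        tendsto_zero_iff_norm_tendsto_zero.mp
          ((hzero j).mpr fun k hk => h _ ⟨j, Finset.mem_range.mp hj, k, hk, rfl⟩)
    filter_upwards [hS.eventually (eventually_lt_nhds (pow_pos hε' n))] with τ hτ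
    refine lt_of_lt_of_le (norm_root_lt (n := n)
      (monic_prod_of_monic (Finset.univ : Finset (Orb p))
        (fun y => X - C (combo m (extC m c) y.vec τ ^ 2)) fun y _ => monic_X_sub_C _)
      (by rw [Polynomial.natDegree_finsetProd_X_sub_C_eq_card, Finset.card_univ])
      ?_ hε' (min_le_right _ _) ?_) (min_le_left _ _)
    · rw [Polynomial.eval_prod]
      exact Finset.prod_eq_zero (Finset.mem_univ x) (by simp)
    · refine lt_of_eq_of_lt (Finset.sum_congr rfl fun j hj => ?_) hτ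
      rw [hZ j (Finset.mem_range.mp hj)]

end Fermat.Agent.Row48.Coefficients
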