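import Fermat.Prelude.Def_FLTPrelim_Modularity
import Mathlib.NumberTheory.ModularForms.Basic
import Fermat.Agent.Row48.Coefficients.Criterion

/-!
# Weight one cusp forms of level `N` as coordinate vectors

`f ↦ f (τ / N)` puts a form on `Γ₁(N)` into the space of combinations; the coefficients are linear
in the coordinates with integers as multipliers.
-/

set_option autoImplicit false

noncomputable section

open Filter Topology UpperHalfPlane ModularForm CongruenceSubgroup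
open scoped Real Manifold MatrixGroups ModularForm Pointwise

namespace Fermat.Agent.Row48.Coefficients

open X0Analytic

section Series

variable {p : ℕ} [NeZero p]

/-- The series of a spanning function. -/
def termSer (p : ℕ) [NeZero p] (m : ℕ) (l : ℕ × ℕ × ℕ) : LaurentSeries ℤ :=
  HahnSeries.ofPowerSeries ℤ ℤ (PowerSeries.mk (wdCoeff p)) *
    (ModularCurve.qExpand ℤ p discInvSer) ^ m * (rootSer p ^ l.1 * monSer p l.2)

theorem hasSer_term (hp : 2 < p) (m : ℕ) (l : ℕ × ℕ × ℕ) :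
    HasSer p (wdVal (baseVec p) * (fun τ => (ModularForm.discriminant τ)⁻¹) ^ m *
      ((fun τ => 12 * wpVal (baseVec p) τ) ^ l.1 * monFn l.2)) (termSer p m l) :=
  ((HasSer.of_hasSum (wdVal_mdiff _) (hasSum_wdVal hp)).mul (hasSer_discInv.expand.pow m)).mul
    (((hasSer_root hp).pow l.1).mul (hasSer_monFn l.2))

/-- The coefficient at `n` as a function of the coordinates. -/
def coordVal (m : ℕ) (c : ↥(spanIdx p m) → ℂ) (n : ℕ) : ℂ :=
  ∑ l : ↥(spanIdx p m), c l * ((termSer p m l).coeff (n : ℤ) : ℂ)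

/-- The series of a bounded combination. -/
theorem hasSum_combo (hp : 2 < p) (m : ℕ) (c : ↥(spanIdx p m) → ℂ)
    (hb : IsBoundedAtImInfty (combo m (extC m c) (baseVec p))) :
    IsPer p (combo m (extC m c) (baseVec p)) ∧ ∀ τ,
      HasSum (fun n : ℕ => coordVal m c n • qp p τ ^ n) (combo m (extC m c) (baseVec p) τ) := by
  classical
  let el : ↥(perMero p) :=
    ∑ l : ↥(spanIdx p m), c l • (⟨_, (hasSer_term hp m l.1).mem⟩ : ↥(perMero p))
  have hcoe : ((el : ↥(perMero p)) : ℍ → ℂ) = combo m (extC m c) (baseVec p) := by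
    funext τ
    simp only [el, AddSubmonoidClass.coe_finsetSum, SetLike.val_smul, Finset.sum_apply,
      Pi.smul_apply, combo, Pi.mul_apply, Pi.pow_apply, smul_eq_mul, Finset.mul_sum]
    rw [← Finset.sum_coe_sort (spanIdx p m)]
    refine Finset.sum_congr rfl fun l _ => ?_
    simp only [extC, l.2, dif_pos, Subtype.coe_eta]
    ring
  have hser : ∀ k : ℕ, (qSer p el).coeff (k : ℤ) = coordVal m c k := fun k => by
    simp only [el, Algebra.smul_def, map_sum, map_mul, qSer_algebraMap,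
      (hasSer_term hp m _).ser, HahnSeries.coeff_sum, HahnSeries.coeff_single_zero_mul, coordVal]
    simp [intSer]
  refine ⟨hcoe ▸ el.2.2.1, fun τ => ?_⟩
  have hb' : IsBoundedAtImInfty ((el : ℍ → ℂ) * qp p ^ 0) := by
    rw [pow_zero, mul_one, hcoe]; exact hb
  have hs := hasSum_series el.2.1 el.2.2.1 hb' τ
  simp only [pow_zero, mul_one] at hs
  rw [hcoe] at hs
  refine hs.congr_fun fun n => ?_
  rw [← hser]
  have := qSer_coeff el hb' n
  simp only [Nat.cast_zero, sub_zero] at this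
  rw [this, pow_zero, mul_one, hcoe]

end Series

variable {N : ℕ} [NeZero N]

theorem natCast_ne_rat : ((N : ℕ) : ℚ) ≠ 0 := Nat.cast_ne_zero.mpr (NeZero.ne N)

/-- `diag(1, N)`. -/
def dilLow (N : ℕ) [NeZero N] : GL (Fin 2) ℚ :=
  Matrix.GeneralLinearGroup.mkOfDetNeZero !![(1 : ℚ), 0; 0, (N : ℚ)]
    (by simp [Matrix.det_fin_two, natCast_ne_rat (N := N)])

/-- `diag(N, 1)`. -/
def dilUp (N : ℕ) [NeZero N] : GL (Fin 2) ℚ :=
  Matrix.GeneralLinearGroup.mkOfDetNeZero !![(N : ℚ), 0; 0, 1]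
    (by simp [Matrix.det_fin_two, natCast_ne_rat (N := N)])

/-- `τ / N`. -/
def divPt (N : ℕ) [NeZero N] (τ : ℍ) : ℍ :=
  ⟨(τ : ℂ) / N, by
    rw [Complex.div_natCast_im]; exact div_pos τ.im_pos (Nat.cast_pos.mpr (NeZero.pos N))⟩

/-- `N τ`. -/
def mulPt (N : ℕ) [NeZero N] (τ : ℍ) : ℍ :=
  ⟨(N : ℂ) * τ, by
    rw [Complex.mul_im]; simp; exact mul_pos (Nat.cast_pos.mpr (NeZero.pos N)) τ.im_pos⟩

theorem slash_dilLow (φ : ℍ → ℂ) (τ : ℍ) :
    (φ ∣[(1 : ℤ)] (dilLow N).map (Rat.castHom ℝ)) τ = φ (divPt N τ) / N := by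
  have hd : (0 : ℝ) < ((dilLow N).map (Rat.castHom ℝ)).det.val := by
    simp [dilLow, Matrix.det_fin_two, NeZero.pos N]
  have he : ((dilLow N).map (Rat.castHom ℝ)) • τ = divPt N τ := by
    ext
    rw [UpperHalfPlane.coe_smul_of_det_pos hd]
    simp [divPt, dilLow, UpperHalfPlane.num, UpperHalfPlane.denom]
  rw [ModularForm.slash_apply, he]
  rw [UpperHalfPlane.σ, if_pos hd]
  simp [UpperHalfPlane.denom, dilLow, div_eq_mul_inv]

theorem slash_dilUp (φ : ℍ → ℂ) (τ : ℍ) :
    (φ ∣[(1 : ℤ)] (dilUp N).map (Rat.castHom ℝ)) τ = φ (mulPt N τ) := by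
  have hd : (0 : ℝ) < ((dilUp N).map (Rat.castHom ℝ)).det.val := by
    simp [dilUp, Matrix.det_fin_two, NeZero.pos N]
  have he : ((dilUp N).map (Rat.castHom ℝ)) • τ = mulPt N τ := by
    ext
    rw [UpperHalfPlane.coe_smul_of_det_pos hd]
    simp [mulPt, dilUp, UpperHalfPlane.num, UpperHalfPlane.denom]
  rw [ModularForm.slash_apply, he]
  rw [UpperHalfPlane.σ, if_pos hd]
  simp [UpperHalfPlane.denom, dilUp]

theorem mapGL_entry (δ : SL(2, ℤ)) (i j : Fin 2) :
    ((Matrix.SpecialLinearGroup.mapGL ℝ δ : GL (Fin 2) ℝ) : Matrix (Fin 2) (Fin 2) ℝ) i j =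
      ((δ i j : ℤ) : ℝ) := rfl

/-- Rational translates of cusp forms vanish at infinity. -/
theorem isZero_slash_rat {Γ : Subgroup (GL (Fin 2) ℝ)} [Γ.IsArithmetic] (φ : CuspForm Γ 1)
    (A : GL (Fin 2) ℚ) (γ : SL(2, ℤ)) :
    IsZeroAtImInfty ((⇑φ ∣[(1 : ℤ)] A.map (Rat.castHom ℝ)) ∣[(1 : ℤ)] γ) := by
  set B : GL (Fin 2) ℚ := A * Matrix.SpecialLinearGroup.mapGL ℚ γ
  have hγ : (Matrix.SpecialLinearGroup.mapGL ℚ γ).map (Rat.castHom ℝ) =
      Matrix.SpecialLinearGroup.mapGL ℝ γ := by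
    ext i j
    simp
  have hB : B.map (Rat.castHom ℝ) = A.map (Rat.castHom ℝ) *
      Matrix.SpecialLinearGroup.mapGL ℝ γ := by
    rw [map_mul, hγ]
  have : (ConjAct.toConjAct (B.map (Rat.castHom ℝ))⁻¹ • Γ).IsArithmetic := by
    rw [← map_inv]
    exact Subgroup.IsArithmetic.conj Γ B⁻¹
  have h := CuspFormClass.zero_at_infty (CuspForm.translate φ (B.map (Rat.castHom ℝ)))
  have e : ⇑(CuspForm.translate φ (B.map (Rat.castHom ℝ))) = ⇑φ ∣[(1 : ℤ)] B.map (Rat.castHom ℝ) :=
    rfl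
  rw [e, hB, SlashAction.slash_mul] at h
  exact h

omit [NeZero N] in
theorem one_mem_periods : (1 : ℝ) ∈ ((Gamma1 N : Subgroup (GL (Fin 2) ℝ))).strictPeriods := by
  simp

/-- **A cusp form on `Γ₁(N)` has coordinates.** -/
theorem exists_coords (hN : 2 < N) {m : ℕ}
    (hm : ∀ g : ℍ → ℂ, IsWeightOne (p := N) g → ∃ c, g = combo m c (baseVec N))
    (f : CuspForm (Gamma1 N) 1) :
    ∃ c : ↥(spanIdx N m) → ℂ,
      (∀ γ : SL(2, ℤ), IsZeroAtImInfty (combo m (extC m c) (baseVec N) ∣[(1 : ℤ)] γ)) ∧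
      ∀ n, ModularFormClass.qCoeff f n = coordVal m c n := by
  set A := (dilLow N).map (Rat.castHom ℝ) with hA
  set h := ⇑f ∣[(1 : ℤ)] A with hh
  have hzero : ∀ γ : SL(2, ℤ), IsZeroAtImInfty (h ∣[(1 : ℤ)] γ) := fun γ =>
    isZero_slash_rat f (dilLow N) γ
  have hW : IsWeightOne (p := N) h := by
    refine ⟨(ModularFormClass.holo f).slash 1 A, fun γ hγ => ?_, fun γ =>
      Filter.Tendsto.isBigO_one ℝ (c := (0 : ℂ)) (hzero γ)⟩
    have hrow := hγ
    simp only [rowAct, baseVec, one_mul, zero_mul, add_zero, Prod.mk.injEq] at hrow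
    obtain ⟨ha, hb⟩ := hrow
    obtain ⟨b', hb'⟩ := (ZMod.intCast_zmod_eq_zero_iff_dvd _ _).mp hb
    have hdet : γ 0 0 * γ 1 1 - γ 0 1 * γ 1 0 = 1 := by
      have := Matrix.SpecialLinearGroup.det_coe γ
      rwa [Matrix.det_fin_two] at this
    let δ : SL(2, ℤ) := ⟨!![γ 0 0, b'; γ 1 0 * N, γ 1 1], by
      rw [Matrix.det_fin_two]; simp; rw [hb'] at hdet; linarith⟩
    have hδ : δ ∈ Gamma1 N := by
      rw [Gamma1_mem]
      have hd : ((γ 1 1 : ℤ) : ZMod N) = 1 := by
        have := congrArg (fun x : ℤ => (x : ZMod N)) hdet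
        simpa [ha, hb] using this
      simp [δ, ha, hd]
    have e : A * (Matrix.SpecialLinearGroup.mapGL ℝ γ) =
        (Matrix.SpecialLinearGroup.mapGL ℝ δ) * A := by
      ext i j
      simp only [Units.val_mul, Matrix.mul_apply, Fin.sum_univ_two, mapGL_entry]
      fin_cases i <;> fin_cases j <;> simp [hA, dilLow, δ, hb', mul_comm]
    show (⇑f ∣[(1 : ℤ)] A) ∣[(1 : ℤ)] (Matrix.SpecialLinearGroup.mapGL ℝ γ) = _
    rw [← SlashAction.slash_mul, e, SlashAction.slash_mul]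
    congr 1
    exact SlashInvariantFormClass.slash_action_eq f _ (Subgroup.mem_map_of_mem _ hδ)
  obtain ⟨c₀, hc₀⟩ := hm h hW
  let c : ↥(spanIdx N m) → ℂ := fun l => (N : ℂ) * c₀ l.1
  have hcombo : combo m (extC m c) (baseVec N) = fun τ => (N : ℂ) * h τ := by
    rw [hc₀]
    funext τ
    simp only [combo, Pi.mul_apply, Pi.pow_apply, Finset.sum_apply, Pi.smul_apply, smul_eq_mul,
      Finset.mul_sum]
    refine Finset.sum_congr rfl fun l hl => ?_
    simp only [extC, hl, dif_pos, c]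
    ring
  have hc0 : ∀ γ : SL(2, ℤ), IsZeroAtImInfty (combo m (extC m c) (baseVec N) ∣[(1 : ℤ)] γ) := by
    intro γ
    have e : combo m (extC m c) (baseVec N) ∣[(1 : ℤ)] γ = fun τ =>
        (N : ℂ) * (h ∣[(1 : ℤ)] γ) τ := by
      rw [hcombo]
      funext τ
      simp only [ModularForm.SL_slash_apply, mul_assoc]
    rw [e]
    have := Filter.Tendsto.const_mul (N : ℂ) (hzero γ)
    rwa [mul_zero] at this
  refine ⟨c, hc0, fun n => ?_⟩
  have hc1 := hc0 1
  rw [SlashAction.slash_one] at hc1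
  obtain ⟨hper, hs⟩ := hasSum_combo hN m c (Filter.Tendsto.isBigO_one ℝ (c := (0 : ℂ)) hc1)
  have hv : ∀ τ, combo m (extC m c) (baseVec N) τ = f (divPt N τ) := fun τ => by
    rw [hcombo]
    simp only [hh, hA, slash_dilLow]
    have : (N : ℂ) ≠ 0 := Nat.cast_ne_zero.mpr (NeZero.ne N)
    field_simp
  have hf : ∀ τ, HasSum (fun n : ℕ => ModularFormClass.qCoeff f n • qp N τ ^ n)
      (combo m (extC m c) (baseVec N) τ) := fun τ => by
    have := ModularForm.hasSum_qExpansion f one_pos one_mem_periods (divPt N τ)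
    rw [hv]
    refine this.congr_fun fun n => ?_
    simp only [smul_eq_mul, ModularFormClass.qCoeff]
    congr 2
    simp [qp, Function.Periodic.qParam, divPt]
    ring_nf
  have hmd : MDiff (combo m (extC m c) (baseVec N)) := combo_mdiff hN m _
  rw [← qExpansion_coeff_eq_of_hasSum hmd hper hf n, qExpansion_coeff_eq_of_hasSum hmd hper hs n]

/-- **Coordinates satisfying the cusp conditions give a cusp form on `Γ₁(N)`.** -/
theorem exists_form (hN : 2 < N) (m : ℕ) (c : ↥(spanIdx N m) → ℂ)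
    (hc : ∀ γ : SL(2, ℤ), IsZeroAtImInfty (combo m (extC m c) (baseVec N) ∣[(1 : ℤ)] γ)) :
    ∃ g : CuspForm (Gamma1 N) 1, ∀ n, ModularFormClass.qCoeff g n = coordVal m c n := by
  set F := combo m (extC m c) (baseVec N) with hF
  let φ : CuspForm (Gamma N) 1 :=
    { toFun := F
      slash_action_eq' := by
        rintro _ ⟨γ, hγ, rfl⟩
        show F ∣[(1 : ℤ)] γ = F
        rw [hF, combo_slash]
        obtain ⟨h1, h2, -, -⟩ := Gamma_mem.mp hγ
        simp [rowAct, baseVec, h1, h2]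
      holo' := combo_mdiff hN m _
      zero_at_cusps' := fun {x} hx => by
        rw [Subgroup.IsArithmetic.isCusp_iff_isCusp_SL2Z] at hx
        rw [OnePoint.isZeroAt_iff_forall_SL2Z hx]
        exact fun δ _ => hc δ }
  have hφ : ⇑φ = F := rfl
  set B := (dilUp N).map (Rat.castHom ℝ) with hB
  let g : CuspForm (Gamma1 N) 1 :=
    { toFun := F ∣[(1 : ℤ)] B
      slash_action_eq' := by
        rintro _ ⟨δ, hδ, rfl⟩
        rw [SetLike.mem_coe, Gamma1_mem] at hδ
        obtain ⟨ha, hd, hc'⟩ := hδ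
        obtain ⟨c', hc'⟩ := (ZMod.intCast_zmod_eq_zero_iff_dvd _ _).mp hc'
        have hdet : δ 0 0 * δ 1 1 - δ 0 1 * δ 1 0 = 1 := by
          have := Matrix.SpecialLinearGroup.det_coe δ
          rwa [Matrix.det_fin_two] at this
        let γ : SL(2, ℤ) := ⟨!![δ 0 0, δ 0 1 * N; c', δ 1 1], by
          rw [Matrix.det_fin_two]; simp; rw [hc'] at hdet; linarith⟩
        have e : B * (Matrix.SpecialLinearGroup.mapGL ℝ δ) =
            (Matrix.SpecialLinearGroup.mapGL ℝ γ) * B := by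
          ext i j
          simp only [Units.val_mul, Matrix.mul_apply, Fin.sum_univ_two, mapGL_entry]
          fin_cases i <;> fin_cases j <;> simp [hB, dilUp, γ, hc', mul_comm]
        rw [← SlashAction.slash_mul, e, SlashAction.slash_mul]
        congr 1
        show F ∣[(1 : ℤ)] γ = F
        rw [hF, combo_slash]
        simp [γ, rowAct, baseVec, ha]
      holo' := (combo_mdiff hN m _).slash 1 B
      zero_at_cusps' := fun {x} hx => by
        rw [Subgroup.IsArithmetic.isCusp_iff_isCusp_SL2Z] at hx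
        rw [OnePoint.isZeroAt_iff_forall_SL2Z hx]
        exact fun δ _ => isZero_slash_rat φ (dilUp N) δ }
  refine ⟨g, fun n => ?_⟩
  have hc1 := hc 1
  rw [SlashAction.slash_one] at hc1
  obtain ⟨-, hs⟩ := hasSum_combo hN m c (Filter.Tendsto.isBigO_one ℝ (c := (0 : ℂ)) hc1)
  refine (ModularFormClass.qExpansion_coeff_unique (f := g) one_pos one_mem_periods
    (c := coordVal m c) (fun τ => ?_) n).symm
  have hval : g τ = F (mulPt N τ) := slash_dilUp F τ
  rw [hval]
  refine (hs (mulPt N τ)).congr_fun fun k => ?_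
  congr 2
  have : (N : ℂ) ≠ 0 := Nat.cast_ne_zero.mpr (NeZero.ne N)
  simp only [qp, Function.Periodic.qParam, mulPt]
  congr 1
  push_cast
  field_simp

end Fermat.Agent.Row48.Coefficients
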