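import Mathlib.Analysis.Complex.Polynomial.Basic
import Mathlib.RingTheory.Nullstellensatz
import Mathlib.FieldTheory.AlgebraicClosure
import Fermat.Agent.Row48.Rankin
import Fermat.Agent.Row48.Product.Defs
import Fermat.Agent.Row48.Coefficients.Level

/-!
# Coefficient field, integrality, algebraic models and conjugates of weight one eigenforms

The coefficients are integral combinations of finitely many complex numbers and the eigenvalues
stabilise their span; the Nullstellensatz gives coordinates over `ℚ̄`, and conjugating these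
coordinates preserves cuspidality as the conditions are polynomials over `ℚ`.
-/

set_option autoImplicit false

noncomputable section

open Filter Topology UpperHalfPlane CongruenceSubgroup ModularFormClass
open scoped MatrixGroups ModularForm Manifold

namespace Fermat.Agent.Row48.Coefficients

local notation "Ω" => algebraicClosure ℚ ℂ

/-- A system of polynomial equations over `ℚ̄` with a complex zero has one over `ℚ̄`. -/
theorem exists_algebraic_zero {ι : Type*} [Finite ι] (S : Set (MvPolynomial ι Ω)) (c : ι → ℂ)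
    (hc : ∀ e ∈ S, MvPolynomial.aeval c e = 0) :
    ∃ x : ι → Ω, ∀ e ∈ S, MvPolynomial.aeval x e = 0 := by
  have : IsAlgClosed Ω := (algebraicClosure.isAlgClosure ℚ ℂ).isAlgClosed
  by_contra h
  push Not at h
  have hz : MvPolynomial.zeroLocus Ω (Ideal.span S) = ∅ := by
    rw [MvPolynomial.zeroLocus_span]
    refine Set.eq_empty_of_forall_notMem fun x hx => ?_
    obtain ⟨e, he, hne⟩ := h x
    exact hne (hx e he)
  have htop : Ideal.span S = ⊤ := by
    have := MvPolynomial.vanishingIdeal_zeroLocus_eq_radical (K := Ω) (Ideal.span S)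
    rw [hz, MvPolynomial.vanishingIdeal_empty] at this
    exact Ideal.radical_eq_top.mp this.symm
  have h1 : (1 : MvPolynomial ι Ω) ∈ RingHom.ker (MvPolynomial.aeval c : _ →ₐ[Ω] ℂ) :=
    (Ideal.span_le.mpr fun e he => RingHom.mem_ker.mpr (hc e he)) (htop ▸ Submodule.mem_top)
  simp [RingHom.mem_ker] at h1

variable {N : ℕ} [NeZero N]

/-- The normalisation forces the level to be at least three. -/
theorem two_lt_level (f : CuspForm (Gamma1 N) 1) (hf₁ : qCoeff f 1 = 1) : 2 < N := by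
  by_contra hN
  have h2 : N = 1 ∨ N = 2 := by have := NeZero.pos N; omega
  have hm : (-1 : SL(2, ℤ)) ∈ Gamma1 N := by
    rw [Gamma1_mem]
    rcases h2 with rfl | rfl
    · exact ⟨Subsingleton.elim _ _, Subsingleton.elim _ _, Subsingleton.elim _ _⟩
    · simp
  have hneg : ∀ τ, f τ = 0 := fun τ => by
    have h := congrFun (show ⇑f ∣[(1 : ℤ)] (-1 : SL(2, ℤ)) = ⇑f from
      SlashInvariantFormClass.slash_action_eq f _ (Subgroup.mem_map_of_mem _ hm)) τ
    rw [ModularForm.SL_slash_apply, ModularGroup.SL_neg_smul, one_smul] at h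
    simp [UpperHalfPlane.denom] at h
    linear_combination (-1 / 2 : ℂ) * h
  have h0 : qCoeff f 1 = 0 := by
    rw [qCoeff, show (⇑f : ℍ → ℂ) = 0 from funext hneg, UpperHalfPlane.qExpansion_zero]
    simp
  rw [h0] at hf₁
  exact zero_ne_one hf₁

/-- The linear form of the coefficient at `n`. -/
def linPoly (m n : ℕ) : MvPolynomial ↥(spanIdx N m) ℚ :=
  ∑ l : ↥(spanIdx N m),
    MvPolynomial.C (((termSer N m l).coeff (n : ℤ) : ℤ) : ℚ) * MvPolynomial.X l

theorem aeval_linPoly (m n : ℕ) (c : ↥(spanIdx N m) → ℂ) :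
    MvPolynomial.aeval c (linPoly m n) = coordVal m c n := by
  simp [linPoly, coordVal, mul_comm]

variable (ε : DirichletCharacter ℂ N) (f : CuspForm (Gamma1 N) 1)

/-- The eigen relations away from the level. -/
abbrev EigenRel (a b : ℕ → ℂ) : Prop :=
  ∀ p : ℕ, p.Prime → ¬ p ∣ N → ∀ n : ℕ,
    b (p * n) + ε (p : ZMod N) * (if p ∣ n then b (n / p) else 0) = a p * b n

variable {ε f}

/-- An order containing the eigenvalues and the values of the character. -/
theorem exists_order (hf₁ : qCoeff f 1 = 1) (hT : EigenRel ε (qCoeff f) (qCoeff f)) :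
    ∃ T : Subalgebra ℤ ℂ, (Subalgebra.toSubmodule T).FG ∧
      (∀ p : ℕ, p.Prime → ¬ p ∣ N → qCoeff f p ∈ T) ∧ ∀ u : ZMod N, ε u ∈ T := by
  have hN := two_lt_level f hf₁
  obtain ⟨m, hm⟩ := exists_spanning (p := N) hN
  obtain ⟨c, -, hc⟩ := exists_coords hN hm f
  set W : Submodule ℤ ℂ :=
    Submodule.span ℤ (Set.range fun x : ZMod N × ℕ => ε x.1 * qCoeff f x.2)
  set W₀ : Submodule ℤ ℂ :=
    Submodule.span ℤ (Set.range fun x : ZMod N × ↥(spanIdx N m) => ε x.1 * c x.2)
  have hW : W ≤ W₀ := by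
    rw [Submodule.span_le]
    rintro _ ⟨⟨u, n⟩, rfl⟩
    rw [SetLike.mem_coe]
    simp only [hc, coordVal, Finset.mul_sum]
    refine Submodule.sum_mem _ fun l _ => ?_
    rw [show ε u * (c l * ((termSer N m l).coeff (n : ℤ) : ℂ)) =
      ((termSer N m l).coeff (n : ℤ)) • (ε u * c l) by rw [zsmul_eq_mul]; ring]
    exact Submodule.smul_mem _ _ (Submodule.subset_span ⟨(u, l), rfl⟩)
  let T : Subalgebra ℤ ℂ :=
    { carrier := {x | ∀ w ∈ W, x * w ∈ W}
      mul_mem' := fun {x y} hx hy w hw => by rw [mul_assoc]; exact hx _ (hy w hw)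
      one_mem' := fun w hw => by rwa [one_mul]
      add_mem' := fun {x y} hx hy w hw => by rw [add_mul]; exact W.add_mem (hx w hw) (hy w hw)
      zero_mem' := fun w hw => by rw [zero_mul]; exact W.zero_mem
      algebraMap_mem' := fun r w hw => by
        rw [← Algebra.smul_def]; exact W.smul_mem r hw }
  have h1 : (1 : ℂ) ∈ W := Submodule.subset_span ⟨(1, 1), by simp [hf₁]⟩
  have hTW : Subalgebra.toSubmodule T ≤ W := fun x hx => by
    have := hx 1 h1
    rwa [mul_one] at this
  have hmem : ∀ x : ℂ, (∀ (u : ZMod N) (n : ℕ), x * (ε u * qCoeff f n) ∈ W) → x ∈ T :=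
    fun x hx w hw => by
      refine (Submodule.span_le (p := W.comap (LinearMap.mulLeft ℤ x))).mpr ?_ hw
      rintro _ ⟨⟨u, n⟩, rfl⟩
      exact hx u n
  refine ⟨T, (Submodule.fg_span (Set.finite_range _)).of_le (hTW.trans hW), fun p hp hpN => ?_,
    fun v => ?_⟩
  · refine hmem _ fun u n => ?_
    rw [show qCoeff f p * (ε u * qCoeff f n) = ε u * (qCoeff f p * qCoeff f n) by ring,
      ← hT p hp hpN n, mul_add]
    refine W.add_mem (Submodule.subset_span ⟨(u, p * n), rfl⟩) ?_
    split_ifs with hd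
    · exact Submodule.subset_span ⟨(u * (p : ZMod N), n / p), by simp [map_mul, mul_assoc]⟩
    · simp
  · refine hmem _ fun u n => ?_
    exact Submodule.subset_span ⟨(v * u, n), by simp [map_mul, mul_assoc]⟩

/-- **Coordinates over `ℚ̄` with the same eigen relations.** -/
theorem exists_algebraic_coords (hf₁ : qCoeff f 1 = 1) (hT : EigenRel ε (qCoeff f) (qCoeff f)) :
    ∃ (m : ℕ) (c : ↥(spanIdx N m) → ℂ), (∀ l, IsAlgebraic ℚ (c l)) ∧
      (∀ γ : SL(2, ℤ), IsZeroAtImInfty (combo m (extC m c) (baseVec N) ∣[(1 : ℤ)] γ)) ∧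
      coordVal m c 1 = 1 ∧ EigenRel ε (qCoeff f) (coordVal m c) := by
  have hN := two_lt_level f hf₁
  obtain ⟨m, hm⟩ := exists_spanning (p := N) hN
  obtain ⟨cf, hcf, hcoef⟩ := exists_coords hN hm f
  obtain ⟨E, hE⟩ := exists_cuspEqns (p := N) hN m
  obtain ⟨T, hTfg, hTa, hTε⟩ := exists_order hf₁ hT
  have halg : ∀ x ∈ T, x ∈ (Ω) := fun x hx => mem_algebraicClosure_iff.mpr
    ((IsIntegral.of_mem_of_fg T hTfg x hx).tower_top (A := ℚ)).isAlgebraic
  let lin : ℕ → MvPolynomial ↥(spanIdx N m) Ω := fun n =>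
    MvPolynomial.map (algebraMap ℚ Ω) (linPoly m n)
  have hlin : ∀ (n : ℕ) (c : ↥(spanIdx N m) → ℂ),
      MvPolynomial.aeval c (lin n) = coordVal m c n := fun n c => by
    rw [MvPolynomial.aeval_map_algebraMap, aeval_linPoly]
  let eig : {p : ℕ // p.Prime ∧ ¬ p ∣ N} → ℕ → MvPolynomial ↥(spanIdx N m) Ω := fun p n =>
    lin (p.1 * n) +
      MvPolynomial.C ⟨ε (p.1 : ZMod N), halg _ (hTε _)⟩ *
        (if p.1 ∣ n then lin (n / p.1) else 0) -
      MvPolynomial.C ⟨qCoeff f p.1, halg _ (hTa p.1 p.2.1 p.2.2)⟩ * lin n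
  have heig : ∀ (p : {p : ℕ // p.Prime ∧ ¬ p ∣ N}) (n : ℕ) (c : ↥(spanIdx N m) → ℂ),
      MvPolynomial.aeval c (eig p n) = coordVal m c (p.1 * n) +
        ε (p.1 : ZMod N) * (if p.1 ∣ n then coordVal m c (n / p.1) else 0) -
        qCoeff f p.1 * coordVal m c n := by
    intro p n c
    simp only [eig, map_sub, map_add, map_mul, MvPolynomial.aeval_C, hlin]
    split_ifs <;> simp [hlin]
  let S : Set (MvPolynomial ↥(spanIdx N m) Ω) :=
    (MvPolynomial.map (algebraMap ℚ Ω) '' E) ∪ {lin 1 - 1} ∪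
      {e | ∃ p n, e = eig p n}
  obtain ⟨x, hx⟩ := exists_algebraic_zero S cf (by
    rintro e ((⟨e, he, rfl⟩ | rfl) | ⟨p, n, rfl⟩)
    · rw [MvPolynomial.aeval_map_algebraMap]; exact (hE cf).mp hcf e he
    · rw [map_sub, map_one, hlin, ← hcoef, hf₁, sub_self]
    · rw [heig, sub_eq_zero]
      simpa only [hcoef] using hT p.1 p.2.1 p.2.2 n)
  have hx' : ∀ e ∈ S, MvPolynomial.aeval (fun l => ((x l : Ω) : ℂ)) e = 0 := fun e he => by
    rw [show (fun l => ((x l : Ω) : ℂ)) = algebraMap Ω ℂ ∘ x from rfl,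
      MvPolynomial.aeval_algebraMap_apply, hx e he, map_zero]
  refine ⟨m, fun l => (x l : ℂ), fun l => mem_algebraicClosure_iff.mp (x l).2,
    (hE _).mpr fun e he => ?_, ?_, fun p hp hpN n => ?_⟩
  · rw [← MvPolynomial.aeval_map_algebraMap (Ω)]
    exact hx' _ (Or.inl (Or.inl ⟨e, he, rfl⟩))
  · have := hx' (lin 1 - 1) (Or.inl (Or.inr rfl))
    rwa [map_sub, map_one, hlin, sub_eq_zero] at this
  · have := hx' (eig ⟨p, hp, hpN⟩ n) (Or.inr ⟨_, n, rfl⟩)
    rwa [heig, sub_eq_zero] at this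

/-- An algebraic number becomes integral after multiplication by a positive integer. -/
theorem exists_natCast_mul_isIntegral {z : ℂ} (hz : IsAlgebraic ℚ z) :
    ∃ D : ℕ, D ≠ 0 ∧ IsIntegral ℤ ((D : ℂ) * z) := by
  obtain ⟨y, hy, hi⟩ := ((IsFractionRing.isAlgebraic_iff ℤ ℚ ℂ).mpr hz).exists_integral_multiple
  refine ⟨y.natAbs, Int.natAbs_ne_zero.mpr hy, ?_⟩
  rw [zsmul_eq_mul] at hi
  rcases Int.natAbs_eq y with h | h
  · rw [h, Int.cast_natCast] at hi; exact hi
  · rw [h, Int.cast_neg, Int.cast_natCast, neg_mul] at hi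
    simpa using hi.neg

/-- **An algebraic model of an eigenform.** -/
theorem algebraicForm_of_eigen (hf₁ : qCoeff f 1 = 1)
    (hT : EigenRel ε (qCoeff f) (qCoeff f)) : AlgebraicForm N ε (qCoeff f) := by
  classical
  have hN := two_lt_level f hf₁
  obtain ⟨m, c, halg, hc, hc1, hrel⟩ := exists_algebraic_coords hf₁ hT
  obtain ⟨g, hg⟩ := exists_form hN m c hc
  choose D hD0 hD using fun l => exists_natCast_mul_isIntegral (halg l)
  refine ⟨g, (hg 1).trans hc1, fun p hp hpN n => ?_, ∏ l, D l,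
    Finset.prod_ne_zero_iff.mpr fun l _ => hD0 l, fun n => ?_⟩
  · simpa only [hg] using hrel p hp hpN n
  · rw [hg, coordVal, Finset.mul_sum]
    refine IsIntegral.sum _ fun l _ => ?_
    rw [← Finset.mul_prod_erase Finset.univ D (Finset.mem_univ l), Nat.cast_mul,
      show (D l : ℂ) * ((∏ x ∈ Finset.univ.erase l, D x : ℕ) : ℂ) *
          (c l * ((termSer N m l).coeff (n : ℤ) : ℂ)) =
        ((D l : ℂ) * c l) * ((∏ x ∈ Finset.univ.erase l, D x : ℕ) : ℂ) *
          ((termSer N m l).coeff (n : ℤ) : ℂ) by ring]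
    refine ((hD l).mul ?_).mul (isIntegral_algebraMap (R := ℤ) (A := ℂ)
      (x := (termSer N m l).coeff (n : ℤ)))
    rw [← Int.cast_natCast]
    exact isIntegral_algebraMap (R := ℤ) (A := ℂ) (x := ((∏ x ∈ Finset.univ.erase l, D x : ℕ) : ℤ))

/-- **Integrality, coefficient field and the prime bound for all conjugates.** -/
theorem coefficients_of_eigen (hf₁ : qCoeff f 1 = 1)
    (hT : EigenRel ε (qCoeff f) (qCoeff f)) : Row48.Coefficients N ε (qCoeff f) := by
  have hN := two_lt_level f hf₁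
  obtain ⟨T, hTfg, hTa, hTε⟩ := exists_order hf₁ hT
  have hint : ∀ x ∈ T, IsIntegral ℤ x := fun x hx => IsIntegral.of_mem_of_fg T hTfg x hx
  refine ⟨fun p hp hpN => hint _ (hTa p hp hpN), ?_⟩
  obtain ⟨G, hG⟩ := hTfg
  have hGT : ∀ x ∈ (G : Set ℂ), x ∈ T := fun x hx => by
    rw [← Subalgebra.mem_toSubmodule, ← hG]; exact Submodule.subset_span hx
  let K := IntermediateField.adjoin ℚ (G : Set ℂ)
  have hTK : ∀ x ∈ T, x ∈ K := fun x hx => by
    rw [← Subalgebra.mem_toSubmodule, ← hG] at hx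
    induction hx using Submodule.span_induction with
    | mem y hy => exact IntermediateField.subset_adjoin ℚ _ hy
    | zero => exact zero_mem _
    | add y z _ _ hy hz => exact add_mem hy hz
    | smul r y _ hy => exact zsmul_mem hy r
  have hfin : FiniteDimensional ℚ K :=
    IntermediateField.finiteDimensional_adjoin fun x hx => (hint x (hGT x hx)).tower_top
  refine ⟨K, hfin, fun p hp hpN => ⟨hTK _ (hTa p hp hpN), hTK _ (hTε _)⟩, fun σ => ?_⟩
  obtain ⟨m, c, halg, hc, hc1, hrel⟩ := exists_algebraic_coords hf₁ hT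
  obtain ⟨E, hE⟩ := exists_cuspEqns (p := N) hN m
  let S : Set ℂ := (K : Set ℂ) ∪ Set.range c
  have hS : ∀ s ∈ S, IsIntegral ℚ s ∧ ((minpoly ℚ s).map (algebraMap ℚ ℂ)).Splits := by
    intro s hs
    refine ⟨?_, IsAlgClosed.splits _⟩
    rcases hs with hs | ⟨l, rfl⟩
    · exact IntermediateField.isIntegral_iff.mp (Algebra.IsIntegral.isIntegral (⟨s, hs⟩ : K))
    · exact (halg l).isIntegral
  have hKS : K ≤ IntermediateField.adjoin ℚ S := fun x hx =>
    IntermediateField.subset_adjoin ℚ S (Or.inl hx)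
  obtain ⟨φ, hφ⟩ := IntermediateField.exists_algHom_adjoin_of_splits hS σ.toRatAlgHom hKS
  let c₀ : ↥(spanIdx N m) → IntermediateField.adjoin ℚ S := fun l =>
    ⟨c l, IntermediateField.subset_adjoin ℚ S (Or.inr ⟨l, rfl⟩)⟩
  let c' : ↥(spanIdx N m) → ℂ := fun l => φ (c₀ l)
  have hval : ∀ e : MvPolynomial ↥(spanIdx N m) ℚ,
      ((MvPolynomial.aeval c₀ e : IntermediateField.adjoin ℚ S) : ℂ) = MvPolynomial.aeval c e ∧
      φ (MvPolynomial.aeval c₀ e) = MvPolynomial.aeval c' e := fun e =>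
    ⟨MvPolynomial.comp_aeval_apply _ (IntermediateField.adjoin ℚ S).val e,
      MvPolynomial.comp_aeval_apply _ φ e⟩
  have hc' : ∀ γ : SL(2, ℤ),
      IsZeroAtImInfty (combo m (extC m c') (baseVec N) ∣[(1 : ℤ)] γ) := by
    refine (hE c').mpr fun e he => ?_
    have h0 : (MvPolynomial.aeval c₀ e : IntermediateField.adjoin ℚ S) = 0 :=
      Subtype.ext ((hval e).1.trans ((hE c).mp hc e he))
    rw [← (hval e).2, h0, map_zero]
  obtain ⟨g, hg⟩ := exists_form hN m c' hc'
  have hcoef : ∀ n, qCoeff g n = φ (MvPolynomial.aeval c₀ (linPoly m n)) := fun n => by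
    rw [(hval _).2, aeval_linPoly, hg]
  have hp1 : ∀ p : ℕ, p.Prime → ¬ p ∣ N → coordVal m c p = qCoeff f p := fun p hp hpN => by
    have := hrel p hp hpN 1
    rwa [mul_one, if_neg hp.not_dvd_one, mul_zero, add_zero, hc1, mul_one] at this
  refine ⟨qCoeff g, primeBound_qCoeff g N _ rfl ?_ ?_, fun p hp hpN x hx => ?_⟩
  · rw [hcoef, show (MvPolynomial.aeval c₀ (linPoly m 1) : IntermediateField.adjoin ℚ S) = 1 from
      Subtype.ext (((hval _).1.trans (aeval_linPoly m 1 c)).trans hc1), map_one]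
  · intro p hp hpN n hpn
    rw [hcoef, hcoef, hcoef, ← map_mul]
    congr 1
    refine Subtype.ext ?_
    show ((_ : IntermediateField.adjoin ℚ S) : ℂ) = _
    rw [(hval _).1, IntermediateField.coe_mul, (hval _).1, (hval _).1, aeval_linPoly,
      aeval_linPoly, aeval_linPoly, hp1 p hp hpN]
    have := hrel p hp hpN n
    rwa [if_neg hpn, mul_zero, add_zero] at this
  · rw [hcoef, show (MvPolynomial.aeval c₀ (linPoly m p) : IntermediateField.adjoin ℚ S) =
      IntermediateField.inclusion hKS x from Subtype.ext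
        (((hval _).1.trans (aeval_linPoly m p c)).trans ((hp1 p hp hpN).trans hx.symm))]
    exact DFunLike.congr_fun hφ x

end Fermat.Agent.Row48.Coefficients
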